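import Mathlib

/-!
# W10 / S34, stage (A) VAL2, abstract core, part 1 (helper2): two valuation rings from
`A / πA = κ₁ × κ₂`

`F` a field, `A` a subring, `π ∈ A`, `F = A[1/π]`.  If `A / πA` is a product of two fields, given
in element form by a pair of "idempotents modulo `π`" `e₁ + e₂ = 1`, then `A` is the intersection
of two valuation subrings `V₁`, `V₂` of `F`, both with maximal ideal generated by `π`, `A` is
integrally closed in `F`, and every ring automorphism `τ` of `F` that is trivial on `A / πA` and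
multiplies `π` by a unit satisfies `τ g / g ∈ A` for every `g ≠ 0`.

Everything is in element form; no localisation types, no Dedekind theory.
-/

set_option autoImplicit false

namespace Fermat.Agent.S34x.Val.H2

variable {F : Type*} [Field F]

/-- `a ∈ πA`, element form. -/
def H2Div (A : Subring F) (π a : F) : Prop := ∃ c ∈ A, a = π * c

/-- `a` lies in the maximal ideal `𝔪_e = {a : a e ∈ πA}` cut out by `e`. -/
def H2In (A : Subring F) (π e a : F) : Prop := H2Div A π (a * e)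

theorem h2Div_zero (A : Subring F) (π : F) : H2Div A π 0 := ⟨0, A.zero_mem, by simp⟩

theorem h2Div_add {A : Subring F} {π a b : F} (ha : H2Div A π a) (hb : H2Div A π b) :
    H2Div A π (a + b) := by
  obtain ⟨c, hc, rfl⟩ := ha
  obtain ⟨d, hd, rfl⟩ := hb
  exact ⟨c + d, A.add_mem hc hd, by ring⟩

theorem h2Div_neg {A : Subring F} {π a : F} (ha : H2Div A π a) : H2Div A π (-a) := by
  obtain ⟨c, hc, rfl⟩ := ha
  exact ⟨-c, A.neg_mem hc, by ring⟩

theorem h2Div_sub {A : Subring F} {π a b : F} (ha : H2Div A π a) (hb : H2Div A π b) :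
    H2Div A π (a - b) := by
  rw [sub_eq_add_neg]
  exact h2Div_add ha (h2Div_neg hb)

theorem h2Div_mul_left {A : Subring F} {π a : F} (ha : H2Div A π a) {b : F} (hb : b ∈ A) :
    H2Div A π (b * a) := by
  obtain ⟨c, hc, rfl⟩ := ha
  exact ⟨b * c, A.mul_mem hb hc, by ring⟩

theorem h2Div_mul_right {A : Subring F} {π a : F} (ha : H2Div A π a) {b : F} (hb : b ∈ A) :
    H2Div A π (a * b) := by
  rw [mul_comm]
  exact h2Div_mul_left ha hb

theorem h2Div_mem {A : Subring F} {π a : F} (hπ : π ∈ A) (ha : H2Div A π a) : a ∈ A := by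
  obtain ⟨c, hc, rfl⟩ := ha
  exact A.mul_mem hπ hc

theorem h2Div_congr {A : Subring F} {π a b : F} (ha : H2Div A π a) (h : H2Div A π (b - a)) :
    H2Div A π b := by
  have := h2Div_add ha h
  rwa [add_sub_cancel] at this

/-- One component of `A / πA`, in element form: `e` is an idempotent modulo `π`, not zero modulo
`π`, and `e (A/πA)` is a field. -/
structure H2Comp (A : Subring F) (π e : F) : Prop where
  hπA : π ∈ A
  hπ0 : π ≠ 0
  hfrac : ∀ z : F, ∃ k : ℕ, π ^ k * z ∈ A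
  he : e ∈ A
  hidem : H2Div A π (e * (1 - e))
  hne : ¬ H2Div A π e
  hfield : ∀ a ∈ A, H2In A π e a ∨ ∃ b ∈ A, H2Div A π (a * b * e - e)

namespace H2Comp

variable {A : Subring F} {π e : F}

theorem e_ne_zero (h : H2Comp A π e) : e ≠ 0 := fun h0 => h.hne (h0 ▸ h2Div_zero A π)

theorem sq_sub (h : H2Comp A π e) : H2Div A π (e * e - e) := by
  have := h2Div_neg h.hidem
  have h1 : -(e * (1 - e)) = e * e - e := by ring
  rwa [h1] at this

theorem not_in_e (h : H2Comp A π e) : ¬ H2In A π e e := fun h1 =>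
  h.hne (h2Div_congr h1 (by
    have := h2Div_neg h.sq_sub
    have h2 : -(e * e - e) = e - e * e := by ring
    rwa [h2] at this))

theorem not_in_one (h : H2Comp A π e) : ¬ H2In A π e 1 := fun h1 => h.hne (by
  unfold H2In at h1; rwa [one_mul] at h1)

theorem in_of_div (h : H2Comp A π e) {a : F} (ha : H2Div A π a) : H2In A π e a :=
  h2Div_mul_right ha h.he

theorem in_add (_h : H2Comp A π e) {a b : F} (ha : H2In A π e a) (hb : H2In A π e b) :
    H2In A π e (a + b) := by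
  unfold H2In at *
  rw [add_mul]
  exact h2Div_add ha hb

theorem in_mul_left (_h : H2Comp A π e) {a : F} (ha : H2In A π e a) {b : F} (hb : b ∈ A) :
    H2In A π e (b * a) := by
  unfold H2In at *
  rw [mul_assoc]
  exact h2Div_mul_left ha hb

theorem in_mul_right (h : H2Comp A π e) {a : F} (ha : H2In A π e a) {b : F} (hb : b ∈ A) :
    H2In A π e (a * b) := by
  rw [mul_comm]
  exact h.in_mul_left ha hb

/-- `𝔪_e` is a prime ideal: the complement is multiplicative. -/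
theorem not_in_mul (h : H2Comp A π e) {a b : F} (ha : a ∈ A) (hb : b ∈ A)
    (hna : ¬ H2In A π e a) (hnb : ¬ H2In A π e b) : ¬ H2In A π e (a * b) := by
  intro hab
  rcases h.hfield a ha with h1 | ⟨a', ha', c, hc, hc'⟩
  · exact hna h1
  · apply hnb
    obtain ⟨d, hd, hd'⟩ := hab
    refine ⟨a' * d - b * c, A.sub_mem (A.mul_mem ha' hd) (A.mul_mem hb hc), ?_⟩
    have h2 : b * e = a' * (a * b * e) - b * (a * a' * e - e) := by ring
    rw [h2, hd', hc']
    ring

theorem pi_not_unit (h : H2Comp A π e) {d : F} (hd : d ∈ A) : π * d ≠ 1 := by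
  intro h1
  apply h.hne
  refine ⟨d * e, A.mul_mem hd h.he, ?_⟩
  rw [← mul_assoc, h1, one_mul]

/-- `1 + πd` is a unit of `A`. -/
theorem inv_one_add_mem (h : H2Comp A π e) {d : F} (hd : d ∈ A) : (1 + π * d)⁻¹ ∈ A := by
  classical
  have hne : 1 + π * d ≠ 0 := by
    intro h0
    have : π * (-d) = 1 := by
      have : π * (-d) = 1 - (1 + π * d) := by ring
      rw [this, h0, sub_zero]
    exact h.pi_not_unit (A.neg_mem hd) this
  set u := (1 + π * d)⁻¹ with hu
  have hex := h.hfrac u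
  have hmin : ∀ m, m < Nat.find hex → ¬ (π ^ m * u ∈ A) := fun m hm => Nat.find_min hex hm
  have hspec := Nat.find_spec hex
  set k := Nat.find hex with hk
  rcases Nat.eq_zero_or_pos k with h0 | hpos
  · rw [h0, pow_zero, one_mul] at hspec
    exact hspec
  · exfalso
    obtain ⟨k', hk'⟩ : ∃ k', k = k' + 1 := ⟨k - 1, by omega⟩
    apply hmin k' (by omega)
    -- a := π^k u ∈ A, a (1 + π d) = π^k, so π^k' u = π^k' - d a
    have ha : π ^ k * u ∈ A := hspec
    have h1 : π ^ k * u * (1 + π * d) = π ^ k := by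
      rw [hu, mul_assoc, inv_mul_cancel₀ hne, mul_one]
    have h2 : π ^ k' * u = π ^ k' - d * (π ^ k * u) := by
      have h3 : π * (π ^ k' * u) = π * (π ^ k' - d * (π ^ k * u)) := by
        rw [hk'] at h1 ⊢
        linear_combination h1
      exact mul_left_cancel₀ h.hπ0 h3
    rw [h2]
    exact A.sub_mem (A.pow_mem h.hπA k') (A.mul_mem hd ha)

/-- **Key lemma**: every non-zero `a ∈ A` is `πⁿ` times a unit at `𝔪_e`. -/
theorem exists_pow_mul (h : H2Comp A π e) {a : F} (ha : a ∈ A) (ha0 : a ≠ 0) :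
    ∃ (n : ℕ) (s c : F), s ∈ A ∧ c ∈ A ∧ ¬ H2In A π e s ∧ ¬ H2In A π e c ∧ s * a = π ^ n * c := by
  -- bound: a a' = π^m t with t ∉ 𝔪
  have key : ∀ (m : ℕ) (a a' t : F), a ∈ A → a' ∈ A → t ∈ A → ¬ H2In A π e t →
      a * a' = π ^ m * t →
      ∃ (n : ℕ) (s c : F), s ∈ A ∧ c ∈ A ∧ ¬ H2In A π e s ∧ ¬ H2In A π e c ∧
        s * a = π ^ n * c := by
    intro m
    induction m with
    | zero =>
      intro a a' t ha ha' ht hnt haa
      rw [pow_zero, one_mul] at haa
      have hna : ¬ H2In A π e a := fun hin => hnt (haa ▸ h.in_mul_right hin ha')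
      exact ⟨0, 1, a, A.one_mem, ha, h.not_in_one, hna, by simp⟩
    | succ m ih =>
      intro a a' t ha ha' ht hnt haa
      by_cases hin : H2In A π e a
      · obtain ⟨c₁, hc₁, hc₁'⟩ := hin
        have h1 : c₁ * a' = π ^ m * (t * e) := by
          have h2 : π * (c₁ * a') = π * (π ^ m * (t * e)) := by
            have h3 : π * (c₁ * a') = (a * e) * a' := by rw [hc₁']; ring
            rw [h3]
            have h4 : a * e * a' = (a * a') * e := by ring
            rw [h4, haa]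
            ring
          exact mul_left_cancel₀ h.hπ0 h2
        obtain ⟨n, s, c, hs, hc, hns, hnc, hsc⟩ :=
          ih c₁ a' (t * e) hc₁ ha' (A.mul_mem ht h.he) (h.not_in_mul ht h.he hnt h.not_in_e) h1
        refine ⟨n + 1, s * e, c, A.mul_mem hs h.he, hc, h.not_in_mul hs h.he hns h.not_in_e,
          hnc, ?_⟩
        have h5 : s * e * a = s * (a * e) := by ring
        rw [h5, hc₁', ← mul_assoc, mul_comm s π, mul_assoc, hsc]
        ring
      · exact ⟨0, 1, a, A.one_mem, ha, h.not_in_one, hin, by simp⟩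
  obtain ⟨m, hm⟩ := h.hfrac a⁻¹
  refine key m a (π ^ m * a⁻¹) 1 ha hm A.one_mem h.not_in_one ?_
  rw [mul_one, mul_comm a, mul_assoc, inv_mul_cancel₀ ha0, mul_one]

/-- The valuation subring `A_{𝔪_e}` of `F`. -/
def val (h : H2Comp A π e) : ValuationSubring F where
  carrier := {z | ∃ s ∈ A, ¬ H2In A π e s ∧ s * z ∈ A}
  mul_mem' := by
    rintro z w ⟨s, hs, hns, hsz⟩ ⟨t, ht, hnt, htw⟩
    refine ⟨s * t, A.mul_mem hs ht, h.not_in_mul hs ht hns hnt, ?_⟩
    have : s * t * (z * w) = (s * z) * (t * w) := by ring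
    rw [this]
    exact A.mul_mem hsz htw
  one_mem' := ⟨1, A.one_mem, h.not_in_one, by simp⟩
  add_mem' := by
    rintro z w ⟨s, hs, hns, hsz⟩ ⟨t, ht, hnt, htw⟩
    refine ⟨s * t, A.mul_mem hs ht, h.not_in_mul hs ht hns hnt, ?_⟩
    have : s * t * (z + w) = t * (s * z) + s * (t * w) := by ring
    rw [this]
    exact A.add_mem (A.mul_mem ht hsz) (A.mul_mem hs htw)
  zero_mem' := ⟨1, A.one_mem, h.not_in_one, by simp⟩
  neg_mem' := by
    rintro z ⟨s, hs, hns, hsz⟩
    refine ⟨s, hs, hns, ?_⟩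
    rw [mul_neg]
    exact A.neg_mem hsz
  mem_or_inv_mem' := by
    intro z
    by_cases hz : z = 0
    · left
      exact ⟨1, A.one_mem, h.not_in_one, by simp [hz]⟩
    obtain ⟨k, hk⟩ := h.hfrac z
    have hpk : π ^ k ≠ 0 := pow_ne_zero _ h.hπ0
    have ha0 : π ^ k * z ≠ 0 := mul_ne_zero hpk hz
    obtain ⟨n, s, c, hs, hc, hns, hnc, hsc⟩ := h.exists_pow_mul hk ha0
    have hc0 : c ≠ 0 := by
      rintro rfl
      exact hnc (by unfold H2In; rw [zero_mul]; exact h2Div_zero A π)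
    have hs0 : s ≠ 0 := by
      rintro rfl
      exact hns (by unfold H2In; rw [zero_mul]; exact h2Div_zero A π)
    -- s π^k z = π^n c
    rcases le_total k n with hkn | hnk
    · left
      refine ⟨s, hs, hns, ?_⟩
      obtain ⟨i, rfl⟩ := Nat.exists_eq_add_of_le hkn
      have h1 : s * z = π ^ i * c := by
        have h2 : π ^ k * (s * z) = π ^ k * (π ^ i * c) := by
          have : π ^ k * (s * z) = s * (π ^ k * z) := by ring
          rw [this, hsc]
          ring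
        exact mul_left_cancel₀ hpk h2
      rw [h1]
      exact A.mul_mem (A.pow_mem h.hπA i) hc
    · right
      refine ⟨c, hc, hnc, ?_⟩
      obtain ⟨i, rfl⟩ := Nat.exists_eq_add_of_le hnk
      have h1 : c * z⁻¹ = π ^ i * s := by
        have h2 : π ^ n * c = π ^ n * (π ^ i * s * z) := by
          rw [← hsc]; ring
        have h3 : c = π ^ i * s * z := mul_left_cancel₀ (pow_ne_zero _ h.hπ0) h2
        rw [h3, mul_assoc, mul_assoc, mul_inv_cancel₀ hz, mul_one]
      rw [h1]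
      exact A.mul_mem (A.pow_mem h.hπA i) hs

theorem mem_val_iff (h : H2Comp A π e) {z : F} :
    z ∈ h.val ↔ ∃ s ∈ A, ¬ H2In A π e s ∧ s * z ∈ A := Iff.rfl

theorem le_val (h : H2Comp A π e) {a : F} (ha : a ∈ A) : a ∈ h.val :=
  ⟨1, A.one_mem, h.not_in_one, by simpa using ha⟩

theorem inv_mem_val (h : H2Comp A π e) {s : F} (hs : s ∈ A) (hns : ¬ H2In A π e s) :
    s⁻¹ ∈ h.val := by
  have hs0 : s ≠ 0 := by
    rintro rfl
    exact hns (by unfold H2In; rw [zero_mul]; exact h2Div_zero A π)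
  exact ⟨s, hs, hns, by rw [mul_inv_cancel₀ hs0]; exact A.one_mem⟩

/-- `π` is not a unit of `V_e`. -/
theorem pi_inv_not_mem (h : H2Comp A π e) : π⁻¹ ∉ h.val := by
  rintro ⟨s, hs, hns, hsz⟩
  apply hns
  apply h.in_of_div
  refine ⟨s * π⁻¹, hsz, ?_⟩
  rw [mul_comm s, ← mul_assoc, mul_inv_cancel₀ h.hπ0, one_mul]

/-- Elements of `𝔪_e` are divisible by `π` in `V_e`. -/
theorem in_div_val (h : H2Comp A π e) {a : F} (hin : H2In A π e a) :
    ∃ z ∈ h.val, a = π * z := by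
  obtain ⟨c, hc, hc'⟩ := hin
  refine ⟨c * e⁻¹, h.val.mul_mem _ _ (h.le_val hc) (h.inv_mem_val h.he h.not_in_e), ?_⟩
  rw [← mul_assoc, ← hc', mul_assoc, mul_inv_cancel₀ h.e_ne_zero, mul_one]

/-- The maximal ideal of `V_e` is generated by `π`. -/
theorem val_unit_or_div (h : H2Comp A π e) {z : F} (hz : z ∈ h.val) :
    z⁻¹ ∈ h.val ∨ ∃ z' ∈ h.val, z = π * z' := by
  obtain ⟨s, hs, hns, hsz⟩ := hz
  have hs0 : s ≠ 0 := by
    rintro rfl
    exact hns (by unfold H2In; rw [zero_mul]; exact h2Div_zero A π)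
  by_cases hin : H2In A π e (s * z)
  · right
    obtain ⟨w, hw, hw'⟩ := h.in_div_val hin
    refine ⟨s⁻¹ * w, h.val.mul_mem _ _ (h.inv_mem_val hs hns) hw, ?_⟩
    have : π * (s⁻¹ * w) = s⁻¹ * (π * w) := by ring
    rw [this, ← hw', ← mul_assoc, inv_mul_cancel₀ hs0, one_mul]
  · left
    have h1 : z⁻¹ = s * (s * z)⁻¹ := by
      by_cases hz0 : z = 0
      · simp [hz0]
      · field_simp
    rw [h1]
    exact h.val.mul_mem _ _ (h.le_val hs) (h.inv_mem_val hsz hin)

/-- The residue field of `V_e` is `A / 𝔪_e`. -/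
theorem val_residue (h : H2Comp A π e) {z : F} (hz : z ∈ h.val) :
    ∃ a ∈ A, ∃ z' ∈ h.val, z = a + π * z' := by
  obtain ⟨s, hs, hns, hsz⟩ := hz
  have hs0 : s ≠ 0 := by
    rintro rfl
    exact hns (by unfold H2In; rw [zero_mul]; exact h2Div_zero A π)
  rcases h.hfield s hs with h1 | ⟨b, hb, hb'⟩
  · exact absurd h1 hns
  -- s b e = e + π c, so z = (s z) b e / (s b e)
  obtain ⟨c, hc, hc'⟩ := hb'
  -- a := (s z) b ; z - a = z (1 - s b) and (1 - s b) e ∈ πA
  refine ⟨s * z * b, A.mul_mem hsz hb, ?_⟩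
  have hin : H2In A π e (1 - s * b) := by
    refine ⟨-c, A.neg_mem hc, ?_⟩
    have : (1 - s * b) * e = -(s * b * e - e) := by ring
    rw [this, hc']
    ring
  obtain ⟨w, hw, hw'⟩ := h.in_div_val hin
  refine ⟨z * w, h.val.mul_mem _ _ ⟨s, hs, hns, hsz⟩ hw, ?_⟩
  have : π * (z * w) = z * (π * w) := by ring
  rw [this, ← hw']
  ring

end H2Comp

/-- `A / πA = κ₁ × κ₂`, element form. -/
structure H2Two (A : Subring F) (π e₁ e₂ : F) : Prop where
  c₁ : H2Comp A π e₁
  c₂ : H2Comp A π e₂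
  hsum : e₁ + e₂ = 1

namespace H2Two

variable {A : Subring F} {π e₁ e₂ : F}

/-- `V₁ ∩ V₂ = A`. -/
theorem mem_of_mem_val (h : H2Two A π e₁ e₂) {z : F} (h₁ : z ∈ h.c₁.val) (h₂ : z ∈ h.c₂.val) :
    z ∈ A := by
  obtain ⟨s₁, hs₁, hns₁, hsz₁⟩ := h₁
  obtain ⟨s₂, hs₂, hns₂, hsz₂⟩ := h₂
  rcases h.c₁.hfield s₁ hs₁ with h1 | ⟨b₁, hb₁, c₁, hc₁, hc₁'⟩
  · exact absurd h1 hns₁
  rcases h.c₂.hfield s₂ hs₂ with h1 | ⟨b₂, hb₂, c₂, hc₂, hc₂'⟩
  · exact absurd h1 hns₂
  set t := s₁ * b₁ * e₁ + s₂ * b₂ * e₂ with ht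
  have ht1 : t = 1 + π * (c₁ + c₂) := by
    have : t = (s₁ * b₁ * e₁ - e₁) + (s₂ * b₂ * e₂ - e₂) + (e₁ + e₂) := by rw [ht]; ring
    rw [this, hc₁', hc₂', h.hsum]
    ring
  have htz : t * z ∈ A := by
    have : t * z = b₁ * e₁ * (s₁ * z) + b₂ * e₂ * (s₂ * z) := by rw [ht]; ring
    rw [this]
    exact A.add_mem (A.mul_mem (A.mul_mem hb₁ h.c₁.he) hsz₁)
      (A.mul_mem (A.mul_mem hb₂ h.c₂.he) hsz₂)
  have hinv : t⁻¹ ∈ A := by
    rw [ht1]
    exact h.c₁.inv_one_add_mem (A.add_mem hc₁ hc₂)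
  have ht0 : t ≠ 0 := by
    intro h0
    have : π * (-(c₁ + c₂)) = 1 := by
      have : π * (-(c₁ + c₂)) = 1 - (1 + π * (c₁ + c₂)) := by ring
      rw [this, ← ht1, h0, sub_zero]
    exact h.c₁.pi_not_unit (A.neg_mem (A.add_mem hc₁ hc₂)) this
  have : z = t⁻¹ * (t * z) := by rw [← mul_assoc, inv_mul_cancel₀ ht0, one_mul]
  rw [this]
  exact A.mul_mem hinv htz

theorem mem_iff (h : H2Two A π e₁ e₂) {z : F} : z ∈ A ↔ z ∈ h.c₁.val ∧ z ∈ h.c₂.val :=
  ⟨fun hz => ⟨h.c₁.le_val hz, h.c₂.le_val hz⟩, fun hz => h.mem_of_mem_val hz.1 hz.2⟩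

/-- `A` is integrally closed in `F`. -/
theorem integrallyClosed (h : H2Two A π e₁ e₂) {z : F} (hz : IsIntegral A z) : z ∈ A := by
  have key : ∀ V : ValuationSubring F, (∀ a ∈ A, a ∈ V) → z ∈ V := by
    intro V hV
    obtain ⟨P, hP, hroot⟩ := hz
    have hint : IsIntegral V z := by
      let φ : A →+* V := (Subring.inclusion (show A ≤ V.toSubring from hV))
      refine ⟨P.map φ, hP.map φ, ?_⟩
      rw [Polynomial.eval₂_map]
      exact hroot
    have := (IsIntegrallyClosed.isIntegral_iff (R := V) (K := F)).mp hint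
    obtain ⟨y, hy⟩ := this
    rw [← hy]
    exact y.2
  exact h.mem_of_mem_val (key _ fun a ha => h.c₁.le_val ha) (key _ fun a ha => h.c₂.le_val ha)

/-- `π` is not a unit of `A` (the hypothesis `hπV` of the gluing theorem). -/
theorem pi_mul_ne_one (h : H2Two A π e₁ e₂) {v : F} (hv : v ∈ A) : π * v ≠ 1 :=
  h.c₁.pi_not_unit hv

/-- `𝔪₁ ∩ 𝔪₂ = πA`. -/
theorem div_of_in (h : H2Two A π e₁ e₂) {a : F} (h₁ : H2In A π e₁ a) (h₂ : H2In A π e₂ a) :
    H2Div A π a := by
  have := h2Div_add h₁ h₂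
  rwa [← mul_add, h.hsum, mul_one] at this

/-- `e₂ ∈ 𝔪₁`. -/
theorem in_two (h : H2Two A π e₁ e₂) : H2In A π e₁ e₂ := by
  have h1 : e₂ * e₁ = e₁ * (1 - e₁) := by
    have : e₂ = 1 - e₁ := by rw [← h.hsum]; ring
    rw [this]; ring
  unfold H2In
  rw [h1]
  exact h.c₁.hidem

/-- A unit of `A` is not in `𝔪_e`. -/
theorem _root_.Fermat.Agent.S34x.Val.H2.H2Comp.not_in_of_mul_eq_one {e : F} (hc : H2Comp A π e)
    {u u' : F} (hu' : u' ∈ A) (h1 : u * u' = 1) : ¬ H2In A π e u := fun hin =>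
  hc.not_in_one (h1 ▸ hc.in_mul_right hin hu')

/-- **(U)**: a ring automorphism of `F` that is trivial on `A / πA` and multiplies `π` by a unit
of `A` preserves both valuations: `τ g / g ∈ A` and `g / τ g ∈ A` for every `g ≠ 0`. -/
theorem unit_quot (h : H2Two A π e₁ e₂) (τ : F ≃+* F) (ε ε' : F) (hε : ε ∈ A) (hε' : ε' ∈ A)
    (hεε' : ε * ε' = 1) (hτπ : τ π = ε * π)
    (htriv : ∀ a ∈ A, H2Div A π (τ a - a)) {g : F} (hg : g ≠ 0) :
    τ g / g ∈ A ∧ g / τ g ∈ A := by
  have hτA : ∀ a ∈ A, τ a ∈ A := fun a ha => by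
    have := A.add_mem (h2Div_mem h.c₁.hπA (htriv a ha)) ha
    rwa [sub_add_cancel] at this
  have hτg : τ g ≠ 0 := fun h0 => hg (τ.injective (h0.trans (map_zero τ).symm))
  have key : ∀ {e : F} (hc : H2Comp A π e), τ g / g ∈ hc.val ∧ g / τ g ∈ hc.val := by
    intro e hc
    have hnot : ∀ c ∈ A, ¬ H2In A π e c → ¬ H2In A π e (τ c) := by
      intro c hcA hnc hin
      apply hnc
      have h1 : H2In A π e (τ c - c) := hc.in_of_div (htriv c hcA)
      have h2 : H2In A π e (τ c + -1 * (τ c - c)) :=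
        hc.in_add hin (hc.in_mul_left h1 (A.neg_mem A.one_mem))
      have h3 : τ c + -1 * (τ c - c) = c := by ring
      rwa [h3] at h2
    obtain ⟨k, hk⟩ := hc.hfrac g
    have hpk : π ^ k ≠ 0 := pow_ne_zero _ hc.hπ0
    obtain ⟨n, s, c, hs, hcA, hns, hnc, hsc⟩ := hc.exists_pow_mul hk (mul_ne_zero hpk hg)
    have hpn : π ^ n ≠ 0 := pow_ne_zero _ hc.hπ0
    have hεk : ¬ H2In A π e (ε ^ k) :=
      hc.not_in_of_mul_eq_one (A.pow_mem hε' k) (by rw [← mul_pow, hεε', one_pow])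
    have hεn : ¬ H2In A π e (ε ^ n) :=
      hc.not_in_of_mul_eq_one (A.pow_mem hε' n) (by rw [← mul_pow, hεε', one_pow])
    -- s π^k g = π^n c ; apply τ
    have hτsc : τ s * (ε ^ k * π ^ k * τ g) = ε ^ n * π ^ n * τ c := by
      have := congrArg τ hsc
      rw [map_mul, map_mul, map_mul, map_pow, map_pow, hτπ, mul_pow, mul_pow] at this
      exact this
    have hmain : τ s * ε ^ k * c * τ g = ε ^ n * τ c * s * g := by
      apply mul_left_cancel₀ (mul_ne_zero hpk hpn)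
      linear_combination (π ^ n * c) * hτsc - (ε ^ n * π ^ n * τ c) * hsc
    constructor
    · refine ⟨τ s * ε ^ k * c, A.mul_mem (A.mul_mem (hτA s hs) (A.pow_mem hε k)) hcA,
        hc.not_in_mul (A.mul_mem (hτA s hs) (A.pow_mem hε k)) hcA
          (hc.not_in_mul (hτA s hs) (A.pow_mem hε k) (hnot s hs hns) hεk) hnc, ?_⟩
      have : τ s * ε ^ k * c * (τ g / g) = ε ^ n * τ c * s := by
        rw [← mul_div_assoc, hmain, mul_div_assoc, div_self hg, mul_one]
      rw [this]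
      exact A.mul_mem (A.mul_mem (A.pow_mem hε n) (hτA c hcA)) hs
    · refine ⟨ε ^ n * τ c * s, A.mul_mem (A.mul_mem (A.pow_mem hε n) (hτA c hcA)) hs,
        hc.not_in_mul (A.mul_mem (A.pow_mem hε n) (hτA c hcA)) hs
          (hc.not_in_mul (A.pow_mem hε n) (hτA c hcA) hεn (hnot c hcA hnc)) hns, ?_⟩
      have : ε ^ n * τ c * s * (g / τ g) = τ s * ε ^ k * c := by
        rw [← mul_div_assoc, ← hmain, mul_div_assoc, div_self hτg, mul_one]
      rw [this]
      exact A.mul_mem (A.mul_mem (hτA s hs) (A.pow_mem hε k)) hcA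
  exact ⟨h.mem_of_mem_val (key h.c₁).1 (key h.c₂).1, h.mem_of_mem_val (key h.c₁).2 (key h.c₂).2⟩

end H2Two

end Fermat.Agent.S34x.Val.H2
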