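import Mathlib
import Fermat.Agent.S34x.Val.H2_TwoVal

/-!
# W10 / S34, stage (A) VAL2, abstract core, ideal form (helper2)

The two maximal ideals `𝔪₁`, `𝔪₂` of `A` (with `A / πA = κ₁ × κ₂`) as `Ideal ↥A`:
prime, maximal, containing `π`, with `𝔪₁ ∩ 𝔪₂ = πA`, `𝔪₁ ≠ 𝔪₂`, and `𝔪ᵢ = A ∩ (nonunits of Vᵢ)`.
-/

set_option autoImplicit false

namespace Fermat.Agent.S34x.Val.H2

variable {F : Type*} [Field F] {A : Subring F} {π e : F}

namespace H2Comp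

/-- The maximal ideal `𝔪_e` of `A`. -/
def ideal (h : H2Comp A π e) : Ideal A where
  carrier := {a | H2In A π e (a : F)}
  add_mem' := fun {a b} ha hb => h.in_add ha hb
  zero_mem' := by
    show H2In A π e ((0 : A) : F)
    unfold H2In
    rw [Subring.coe_zero, zero_mul]
    exact h2Div_zero A π
  smul_mem' := fun c a ha => h.in_mul_left ha c.2

theorem mem_ideal_iff (h : H2Comp A π e) {a : A} : a ∈ h.ideal ↔ H2In A π e (a : F) := Iff.rfl

theorem pi_mem_ideal (h : H2Comp A π e) : (⟨π, h.hπA⟩ : A) ∈ h.ideal :=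
  h.in_of_div ⟨1, A.one_mem, by rw [mul_one]⟩

theorem ideal_ne_top (h : H2Comp A π e) : h.ideal ≠ ⊤ := fun htop =>
  h.not_in_one (by
    have : (1 : A) ∈ h.ideal := htop ▸ Submodule.mem_top
    exact this)

instance ideal_isPrime (h : H2Comp A π e) : h.ideal.IsPrime where
  ne_top' := h.ideal_ne_top
  mem_or_mem' := by
    intro a b hab
    by_contra hcon
    rw [not_or] at hcon
    exact h.not_in_mul a.2 b.2 hcon.1 hcon.2 hab

/-- `𝔪_e = A ∩ (nonunits of V_e)`. -/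
theorem mem_ideal_iff_nonunits (h : H2Comp A π e) {a : A} :
    a ∈ h.ideal ↔ (a : F) ∈ h.val.nonunits := by
  rw [ValuationSubring.mem_nonunits_iff_exists_mem_maximalIdeal]
  constructor
  · intro ha
    obtain ⟨z, hz, hz'⟩ := h.in_div_val ha
    refine ⟨h.le_val a.2, ?_⟩
    rw [IsLocalRing.mem_maximalIdeal, mem_nonunits_iff]
    intro hu
    -- a = π z is a unit of V, so π is a unit of V
    obtain ⟨u, hu'⟩ := hu
    have h1 : (a : F) * (((u⁻¹ : (h.val)ˣ) : h.val) : F) = 1 := by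
      have h0 : (⟨(a : F), h.le_val a.2⟩ : h.val) * ((u⁻¹ : (h.val)ˣ) : h.val) = 1 := by
        rw [← hu']; exact u.mul_inv
      exact congrArg Subtype.val h0
    apply h.pi_inv_not_mem
    have h2 : π * (z * (((u⁻¹ : (h.val)ˣ) : h.val) : F)) = 1 := by
      rw [← mul_assoc, ← hz']; exact h1
    rw [inv_eq_of_mul_eq_one_right h2]
    exact h.val.mul_mem _ _ hz (((u⁻¹ : (h.val)ˣ) : h.val)).2
  · rintro ⟨haV, ha⟩
    by_contra hnot
    rw [IsLocalRing.mem_maximalIdeal, mem_nonunits_iff] at ha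
    apply ha
    have hinv : (a : F)⁻¹ ∈ h.val := h.inv_mem_val a.2 hnot
    have ha0 : (a : F) ≠ 0 := by
      intro h0
      apply hnot
      show H2In A π e (a : F)
      unfold H2In
      rw [h0, zero_mul]
      exact h2Div_zero A π
    refine ⟨⟨⟨(a : F), haV⟩, ⟨(a : F)⁻¹, hinv⟩, ?_, ?_⟩, rfl⟩
    · apply Subtype.ext; simp [ha0]
    · apply Subtype.ext; simp [ha0]

/-- `𝔪_e` is a maximal ideal of `A`. -/
theorem ideal_isMaximal (h : H2Comp A π e) : h.ideal.IsMaximal := by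
  rw [Ideal.isMaximal_iff]
  refine ⟨h.not_in_one, ?_⟩
  intro J a hJ haI haJ
  -- a ∉ 𝔪: a b e = e + π c ; 1 - e ∈ 𝔪 since (1 - e) e ∈ πA
  rcases h.hfield (a : F) a.2 with hin | ⟨b, hb, c, hc, hc'⟩
  · exact absurd hin haI
  have h1e : (⟨1 - e, A.sub_mem A.one_mem h.he⟩ : A) ∈ h.ideal := by
    show H2In A π e (1 - e)
    unfold H2In
    rw [mul_comm]
    exact h.hidem
  have hπc : (⟨π * c, A.mul_mem h.hπA hc⟩ : A) ∈ h.ideal :=
    h.in_of_div ⟨c, hc, rfl⟩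
  have h1 : (1 : A) = a * ⟨b * e, A.mul_mem hb h.he⟩ + (⟨1 - e, A.sub_mem A.one_mem h.he⟩
      - ⟨π * c, A.mul_mem h.hπA hc⟩) := by
    apply Subtype.ext
    push_cast
    have : (a : F) * (b * e) = e + π * c := by
      have : (a : F) * (b * e) = (a : F) * b * e - e + e := by ring
      rw [this, hc']; ring
    rw [this]; ring
  rw [h1]
  exact J.add_mem (J.mul_mem_right _ haJ) (hJ (h.ideal.sub_mem h1e hπc))

end H2Comp

namespace H2Two

variable {e₁ e₂ : F}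

/-- `𝔪₁ ∩ 𝔪₂ ⊆ πA`, ideal form. -/
theorem cap (h : H2Two A π e₁ e₂) (a : A) (h₁ : a ∈ h.c₁.ideal) (h₂ : a ∈ h.c₂.ideal) :
    ∃ c ∈ A, (a : F) = π * c :=
  h.div_of_in h₁ h₂

/-- The second idempotent lies in `𝔪₁` and not in `𝔪₂`. -/
theorem e₂_mem (h : H2Two A π e₁ e₂) : (⟨e₂, h.c₂.he⟩ : A) ∈ h.c₁.ideal := h.in_two

theorem e₂_not_mem (h : H2Two A π e₁ e₂) : (⟨e₂, h.c₂.he⟩ : A) ∉ h.c₂.ideal := h.c₂.not_in_e

theorem e₁_mem (h : H2Two A π e₁ e₂) : (⟨e₁, h.c₁.he⟩ : A) ∈ h.c₂.ideal := by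
  show H2In A π e₂ e₁
  have h1 : e₁ * e₂ = e₂ * (1 - e₂) := by
    have : e₁ = 1 - e₂ := by rw [← h.hsum]; ring
    rw [this]; ring
  unfold H2In
  rw [h1]
  exact h.c₂.hidem

theorem e₁_not_mem (h : H2Two A π e₁ e₂) : (⟨e₁, h.c₁.he⟩ : A) ∉ h.c₁.ideal := h.c₁.not_in_e

/-- The two maximal ideals are different (incomparable). -/
theorem ideal_ne (h : H2Two A π e₁ e₂) : h.c₁.ideal ≠ h.c₂.ideal := fun heq =>
  h.e₂_not_mem (heq ▸ h.e₂_mem)

theorem not_le₁₂ (h : H2Two A π e₁ e₂) : ¬ h.c₁.ideal ≤ h.c₂.ideal := fun hle =>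
  h.e₂_not_mem (hle h.e₂_mem)

theorem not_le₂₁ (h : H2Two A π e₁ e₂) : ¬ h.c₂.ideal ≤ h.c₁.ideal := fun hle =>
  h.e₁_not_mem (hle h.e₁_mem)

/-- Every maximal ideal of `A` is `𝔪₁` or `𝔪₂`: an element outside both is a unit. -/
theorem inv_mem_of_not_mem (h : H2Two A π e₁ e₂) {a : F} (ha : a ∈ A)
    (h₁ : ¬ H2In A π e₁ a) (h₂ : ¬ H2In A π e₂ a) : a⁻¹ ∈ A :=
  h.mem_of_mem_val (h.c₁.inv_mem_val ha h₁) (h.c₂.inv_mem_val ha h₂)

end H2Two

end Fermat.Agent.S34x.Val.H2
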