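import Mathlib
import Fermat.Agent.S34x.Val.H2_TwoVal

/-!
# W10 / S34, stage (A) VAL2, abstract core, part 2 (helper2): `W[x]` for a monic polynomial
whose reduction is a product of two coprime irreducible factors

`W` a valuation subring of `F₀` with maximal ideal `πW` and `F₀ = W[1/π]`, `F = F₀(x)`,
`G ∈ W[X]` monic with `minpoly F₀ x = G`, `G mod π = G₁ G₂` with `G₁`, `G₂` coprime and
irreducible over the residue field.  Then `A := W[x]` satisfies the hypotheses of part 1: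
`A / πA = κ[X]/G₁ × κ[X]/G₂`.
-/

set_option autoImplicit false

open Polynomial

namespace Fermat.Agent.S34x.Val.H2

variable {F₀ F : Type*} [Field F₀] [Field F] [Algebra F₀ F]

/-- The ring homomorphism `W → F`. -/
noncomputable def h2inc (W : ValuationSubring F₀) : W →+* F := (algebraMap F₀ F).comp W.subtype

/-- Evaluation at `x`, `W[X] → F`. -/
noncomputable def h2ev (W : ValuationSubring F₀) (x : F) : W[X] →+* F :=
  Polynomial.eval₂RingHom (h2inc W) x

/-- The subring `W[x]` of `F`. -/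
noncomputable def h2A (W : ValuationSubring F₀) (x : F) : Subring F := (h2ev W x).range

theorem h2ev_mem (W : ValuationSubring F₀) (x : F) (P : W[X]) : h2ev W x P ∈ h2A W x :=
  ⟨P, rfl⟩

theorem h2ev_C (W : ValuationSubring F₀) (x : F) (w : W) :
    h2ev W x (C w) = algebraMap F₀ F (w : F₀) := by
  simp [h2ev, h2inc]

theorem h2ev_X (W : ValuationSubring F₀) (x : F) : h2ev W x X = x := by
  simp [h2ev]

theorem h2ev_eq_aeval (W : ValuationSubring F₀) (x : F) (P : W[X]) :
    h2ev W x P = Polynomial.aeval x (P.map W.subtype) := by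
  rw [Polynomial.aeval_def, Polynomial.eval₂_map]
  rfl

theorem h2_algebraMap_mem (W : ValuationSubring F₀) (x : F) {w : F₀} (hw : w ∈ W) :
    algebraMap F₀ F w ∈ h2A W x :=
  ⟨C ⟨w, hw⟩, h2ev_C W x ⟨w, hw⟩⟩

theorem h2_x_mem (W : ValuationSubring F₀) (x : F) : x ∈ h2A W x := ⟨X, h2ev_X W x⟩

/-- The data of stage (A): a valuation subring `W` with uniformiser `π`, a primitive element `x`
with monic minimal polynomial `G ∈ W[X]`, and the factorisation of `G` modulo `π`. -/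
structure H2Poly (W : ValuationSubring F₀) (π : F₀) (x : F) (G : W[X])
    (G₁ G₂ : (IsLocalRing.ResidueField W)[X]) : Prop where
  hπW : π ∈ W
  hπ0 : π ≠ 0
  hπu : π⁻¹ ∉ W
  hmax : ∀ w ∈ W, w⁻¹ ∈ W ∨ ∃ w' ∈ W, w = π * w'
  hdvr : ∀ c : F₀, ∃ k : ℕ, π ^ k * c ∈ W
  hG : G.Monic
  hmin : minpoly F₀ x = G.map W.subtype
  hgen : ∀ z : F, ∃ P : F₀[X], Polynomial.aeval x P = z
  hfac : G.map (IsLocalRing.residue W) = G₁ * G₂
  hcop : IsCoprime G₁ G₂
  hirr₁ : Irreducible G₁
  hirr₂ : Irreducible G₂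

section Red

variable {W : ValuationSubring F₀} {π : F₀}

/-- The residue of `w` vanishes iff `π ∣ w` in `W`. -/
theorem h2_residue_eq_zero_iff (hπW : π ∈ W) (hπu : π⁻¹ ∉ W)
    (hmax : ∀ w ∈ W, w⁻¹ ∈ W ∨ ∃ w' ∈ W, w = π * w') (w : W) :
    IsLocalRing.residue W w = 0 ↔ (⟨π, hπW⟩ : W) ∣ w := by
  rw [IsLocalRing.residue_eq_zero_iff, IsLocalRing.mem_maximalIdeal, mem_nonunits_iff]
  constructor
  · intro hnu
    rcases hmax (w : F₀) w.2 with hinv | ⟨w', hw', hww'⟩
    · by_cases hw0 : (w : F₀) = 0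
      · exact ⟨0, by apply Subtype.ext; simp [hw0]⟩
      · exfalso
        apply hnu
        refine ⟨⟨w, ⟨(w : F₀)⁻¹, hinv⟩, ?_, ?_⟩, rfl⟩
        · apply Subtype.ext; simp [hw0]
        · apply Subtype.ext; simp [hw0]
    · exact ⟨⟨w', hw'⟩, by apply Subtype.ext; simpa using hww'⟩
  · rintro ⟨w', hw'⟩ hu
    apply hπu
    obtain ⟨u, hu'⟩ := hu
    have h0 : w * ((u⁻¹ : Wˣ) : W) = 1 := by rw [← hu']; exact u.mul_inv
    have h1 : π * ((w' : F₀) * (((u⁻¹ : Wˣ) : W) : F₀)) = 1 := by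
      have := congrArg Subtype.val h0
      rw [hw'] at this
      simpa [mul_assoc] using this
    rw [inv_eq_of_mul_eq_one_right h1]
    exact W.mul_mem _ _ w'.2 (((u⁻¹ : Wˣ) : W)).2

/-- A polynomial over `W` that vanishes modulo `π` is divisible by `π`. -/
theorem h2_C_dvd_of_map_eq_zero (hπW : π ∈ W) (hπu : π⁻¹ ∉ W)
    (hmax : ∀ w ∈ W, w⁻¹ ∈ W ∨ ∃ w' ∈ W, w = π * w') {P : W[X]}
    (hP : P.map (IsLocalRing.residue W) = 0) : ∃ R : W[X], P = C (⟨π, hπW⟩ : W) * R := by
  have : C (⟨π, hπW⟩ : W) ∣ P := by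
    rw [Polynomial.C_dvd_iff_dvd_coeff]
    intro i
    rw [← h2_residue_eq_zero_iff hπW hπu hmax]
    have := congrArg (fun Q => Q.coeff i) hP
    simpa [Polynomial.coeff_map] using this
  exact this

theorem h2_map_C_pi (hπW : π ∈ W) (hπu : π⁻¹ ∉ W)
    (hmax : ∀ w ∈ W, w⁻¹ ∈ W ∨ ∃ w' ∈ W, w = π * w') :
    (C (⟨π, hπW⟩ : W)).map (IsLocalRing.residue W) = 0 := by
  rw [Polynomial.map_C, (h2_residue_eq_zero_iff hπW hπu hmax _).mpr dvd_rfl, map_zero]

end Red

namespace H2Poly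

variable {W : ValuationSubring F₀} {π : F₀} {x : F} {G : W[X]}
  {G₁ G₂ : (IsLocalRing.ResidueField W)[X]}

/-- The uniformiser as an element of `W`. -/
def piW (D : H2Poly W π x G G₁ G₂) : W := ⟨π, D.hπW⟩

theorem ev_C_piW (D : H2Poly W π x G G₁ G₂) : h2ev W x (C D.piW) = algebraMap F₀ F π :=
  h2ev_C W x _

theorem ev_G (D : H2Poly W π x G G₁ G₂) : h2ev W x G = 0 := by
  rw [h2ev_eq_aeval, ← D.hmin, minpoly.aeval]

theorem isIntegral_x (D : H2Poly W π x G G₁ G₂) : IsIntegral F₀ x :=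
  ⟨G.map W.subtype, D.hG.map _, by
    rw [← Polynomial.aeval_def, ← D.hmin, minpoly.aeval]⟩

/-- `G` is the minimal polynomial over `W`: a polynomial over `W` vanishing at `x` is a multiple
of `G` in `W[X]`. -/
theorem dvd_of_ev_eq_zero (D : H2Poly W π x G G₁ G₂) {Q : W[X]} (hQ : h2ev W x Q = 0) :
    G ∣ Q := by
  rw [h2ev_eq_aeval] at hQ
  have h1 : minpoly F₀ x ∣ Q.map W.subtype := minpoly.dvd F₀ x hQ
  rw [D.hmin] at h1
  exact (Polynomial.map_dvd_map W.subtype Subtype.val_injective D.hG).mp h1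

/-- **(LIFT)/(MIN)**: `P(x) ∈ πA ↔ G mod π ∣ P mod π`. -/
theorem div_iff (D : H2Poly W π x G G₁ G₂) (P : W[X]) :
    H2Div (h2A W x) (algebraMap F₀ F π) (h2ev W x P) ↔
      G.map (IsLocalRing.residue W) ∣ P.map (IsLocalRing.residue W) := by
  constructor
  · rintro ⟨c, ⟨R, rfl⟩, hc⟩
    have h0 : h2ev W x (P - C D.piW * R) = 0 := by
      rw [map_sub, map_mul, D.ev_C_piW, hc, sub_self]
    obtain ⟨Q, hQ⟩ := D.dvd_of_ev_eq_zero h0
    have h1 : P = G * Q + C D.piW * R := by rw [← hQ]; ring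
    rw [h1, Polynomial.map_add, Polynomial.map_mul, Polynomial.map_mul,
      show (C D.piW).map (IsLocalRing.residue W) = 0 from h2_map_C_pi D.hπW D.hπu D.hmax,
      zero_mul, add_zero]
    exact dvd_mul_right _ _
  · rintro ⟨Q', hQ'⟩
    obtain ⟨Q, rfl⟩ := Polynomial.map_surjective (IsLocalRing.residue W)
      IsLocalRing.residue_surjective Q'
    have h0 : (P - G * Q).map (IsLocalRing.residue W) = 0 := by
      rw [Polynomial.map_sub, Polynomial.map_mul, hQ', sub_self]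
    obtain ⟨R, hR⟩ := h2_C_dvd_of_map_eq_zero D.hπW D.hπu D.hmax h0
    refine ⟨h2ev W x R, h2ev_mem W x R, ?_⟩
    have h1 : P = G * Q + C D.piW * R := by
      have : C D.piW * R = P - G * Q := hR.symm
      rw [this]; ring
    rw [h1, map_add, map_mul, map_mul, D.ev_G, zero_mul, zero_add, D.ev_C_piW]

/-- `F = A[1/π]`. -/
theorem hfrac (D : H2Poly W π x G G₁ G₂) (z : F) :
    ∃ k : ℕ, (algebraMap F₀ F π) ^ k * z ∈ h2A W x := by
  obtain ⟨P, rfl⟩ := D.hgen z
  induction P using Polynomial.induction_on' with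
  | add p q hp hq =>
    obtain ⟨k, hk⟩ := hp
    obtain ⟨l, hl⟩ := hq
    refine ⟨k + l, ?_⟩
    have hπ : algebraMap F₀ F π ∈ h2A W x := h2_algebraMap_mem W x D.hπW
    have : (algebraMap F₀ F π) ^ (k + l) * (Polynomial.aeval x (p + q)) =
        (algebraMap F₀ F π) ^ l * ((algebraMap F₀ F π) ^ k * Polynomial.aeval x p) +
        (algebraMap F₀ F π) ^ k * ((algebraMap F₀ F π) ^ l * Polynomial.aeval x q) := by
      rw [map_add, pow_add]; ring
    rw [this]
    exact (h2A W x).add_mem ((h2A W x).mul_mem ((h2A W x).pow_mem hπ l) hk)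
      ((h2A W x).mul_mem ((h2A W x).pow_mem hπ k) hl)
  | monomial n c =>
    obtain ⟨k, hk⟩ := D.hdvr c
    refine ⟨k, ?_⟩
    have : (algebraMap F₀ F π) ^ k * (Polynomial.aeval x (Polynomial.monomial n c)) =
        algebraMap F₀ F (π ^ k * c) * x ^ n := by
      rw [Polynomial.aeval_monomial, map_mul, map_pow]; ring
    rw [this]
    exact (h2A W x).mul_mem (h2_algebraMap_mem W x hk) ((h2A W x).pow_mem (h2_x_mem W x) n)

/-- One component of `A / πA = κ[X] / (H₁ H₂)`: the idempotent `T ≡ U₂ H₂`, `1 - T ≡ U₁ H₁`. -/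
theorem comp_of (D : H2Poly W π x G G₁ G₂)
    {H₁ H₂ U₁ U₂ : (IsLocalRing.ResidueField W)[X]} (T : W[X])
    (hfac : G.map (IsLocalRing.residue W) = H₁ * H₂) (hirr : Irreducible H₁) (hH₂ : H₂ ≠ 0)
    (hT : T.map (IsLocalRing.residue W) = U₂ * H₂)
    (hT' : 1 - T.map (IsLocalRing.residue W) = U₁ * H₁) :
    H2Comp (h2A W x) (algebraMap F₀ F π) (h2ev W x T) where
  hπA := h2_algebraMap_mem W x D.hπW
  hπ0 := by
    intro h0
    exact D.hπ0 ((algebraMap F₀ F).injective (h0.trans (map_zero _).symm))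
  hfrac := D.hfrac
  he := h2ev_mem W x T
  hidem := by
    have : h2ev W x T * (1 - h2ev W x T) = h2ev W x (T * (1 - T)) := by
      rw [map_mul, map_sub, map_one]
    rw [this, D.div_iff, Polynomial.map_mul, Polynomial.map_sub, Polynomial.map_one, hT', hT,
      hfac]
    exact ⟨U₂ * U₁, by ring⟩
  hne := by
    rw [D.div_iff, hT, hfac]
    intro hdvd
    have h1 : H₁ ∣ U₂ := by
      obtain ⟨S, hS⟩ := hdvd
      refine ⟨S, ?_⟩
      have : U₂ * H₂ = (H₁ * S) * H₂ := by rw [hS]; ring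
      exact mul_right_cancel₀ hH₂ this
    have h2 : H₁ ∣ 1 := by
      have h3 : (1 : (IsLocalRing.ResidueField W)[X]) = U₁ * H₁ + U₂ * H₂ := by
        rw [← hT', ← hT]; ring
      rw [h3]
      exact dvd_add (dvd_mul_left _ _) (Dvd.dvd.mul_right h1 _)
    exact hirr.not_isUnit (isUnit_of_dvd_one h2)
  hfield := by
    rintro a ⟨P, rfl⟩
    by_cases hdvd : H₁ ∣ P.map (IsLocalRing.residue W)
    · left
      unfold H2In
      rw [← map_mul, D.div_iff, Polynomial.map_mul, hT, hfac]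
      obtain ⟨S, hS⟩ := hdvd
      exact ⟨S * U₂, by rw [hS]; ring⟩
    · right
      have hcop : IsCoprime H₁ (P.map (IsLocalRing.residue W)) :=
        (Irreducible.coprime_iff_not_dvd hirr).mpr hdvd
      obtain ⟨C', B', hCB⟩ := hcop
      obtain ⟨B, rfl⟩ := Polynomial.map_surjective (IsLocalRing.residue W)
        IsLocalRing.residue_surjective B'
      refine ⟨h2ev W x B, h2ev_mem W x B, ?_⟩
      have : h2ev W x P * h2ev W x B * h2ev W x T - h2ev W x T =
          h2ev W x (P * B * T - T) := by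
        rw [map_sub, map_mul, map_mul]
      rw [this, D.div_iff, Polynomial.map_sub, Polynomial.map_mul, Polynomial.map_mul, hT, hfac]
      refine ⟨-(C' * U₂), ?_⟩
      have h4 : P.map (IsLocalRing.residue W) * B.map (IsLocalRing.residue W) =
          1 - C' * H₁ := by
        rw [← hCB]; ring
      rw [h4]
      ring

/-- The membership in the maximal ideal `𝔪` of the component in terms of polynomials. -/
theorem in_iff_of (D : H2Poly W π x G G₁ G₂)
    {H₁ H₂ U₁ U₂ : (IsLocalRing.ResidueField W)[X]} (T : W[X])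
    (hfac : G.map (IsLocalRing.residue W) = H₁ * H₂) (hH₂ : H₂ ≠ 0)
    (hT : T.map (IsLocalRing.residue W) = U₂ * H₂)
    (hT' : 1 - T.map (IsLocalRing.residue W) = U₁ * H₁) (P : W[X]) :
    H2In (h2A W x) (algebraMap F₀ F π) (h2ev W x T) (h2ev W x P) ↔
      H₁ ∣ P.map (IsLocalRing.residue W) := by
  unfold H2In
  rw [← map_mul, D.div_iff, Polynomial.map_mul, hT, hfac]
  constructor
  · rintro ⟨S, hS⟩
    -- P U₂ H₂ = H₁ H₂ S, so H₁ ∣ P U₂, and P = P (U₁ H₁ + U₂ H₂)
    have h1 : P.map (IsLocalRing.residue W) * U₂ = H₁ * S := by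
      have : (P.map (IsLocalRing.residue W) * U₂) * H₂ = (H₁ * S) * H₂ := by
        rw [← mul_assoc] at hS
        rw [hS]; ring
      exact mul_right_cancel₀ hH₂ this
    have h3 : (1 : (IsLocalRing.ResidueField W)[X]) = U₁ * H₁ + U₂ * H₂ := by
      rw [← hT', ← hT]; ring
    refine ⟨P.map (IsLocalRing.residue W) * U₁ + S * H₂, ?_⟩
    calc P.map (IsLocalRing.residue W) = P.map (IsLocalRing.residue W) * 1 := by rw [mul_one]
      _ = P.map (IsLocalRing.residue W) * U₁ * H₁ +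
          (P.map (IsLocalRing.residue W) * U₂) * H₂ := by rw [h3]; ring
      _ = H₁ * (P.map (IsLocalRing.residue W) * U₁ + S * H₂) := by rw [h1]; ring
  · rintro ⟨S, hS⟩
    exact ⟨S * U₂, by rw [hS]; ring⟩

/-- **Stage (A), abstract core.**  `A = W[x]` has `A / πA = κ₁ × κ₂`. -/
theorem exists_two (D : H2Poly W π x G G₁ G₂) :
    ∃ e₁ e₂ : F, H2Two (h2A W x) (algebraMap F₀ F π) e₁ e₂ ∧
      (∀ P : W[X], H2In (h2A W x) (algebraMap F₀ F π) e₁ (h2ev W x P) ↔
        G₁ ∣ P.map (IsLocalRing.residue W)) ∧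
      (∀ P : W[X], H2In (h2A W x) (algebraMap F₀ F π) e₂ (h2ev W x P) ↔
        G₂ ∣ P.map (IsLocalRing.residue W)) := by
  obtain ⟨U₁, U₂, hU⟩ := D.hcop
  obtain ⟨T, hT⟩ := Polynomial.map_surjective (IsLocalRing.residue W)
    IsLocalRing.residue_surjective (U₂ * G₂)
  have hT' : 1 - T.map (IsLocalRing.residue W) = U₁ * G₁ := by rw [hT, ← hU]; ring
  have hT1 : (1 - T).map (IsLocalRing.residue W) = U₁ * G₁ := by
    rw [Polynomial.map_sub, Polynomial.map_one, hT']
  have hT1' : 1 - (1 - T).map (IsLocalRing.residue W) = U₂ * G₂ := by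
    rw [hT1, ← hU]; ring
  have hfac' : G.map (IsLocalRing.residue W) = G₂ * G₁ := by rw [D.hfac, mul_comm]
  refine ⟨h2ev W x T, h2ev W x (1 - T),
    ⟨D.comp_of T D.hfac D.hirr₁ D.hirr₂.ne_zero hT hT',
      D.comp_of (1 - T) hfac' D.hirr₂ D.hirr₁.ne_zero hT1 hT1', ?_⟩,
    fun P => D.in_iff_of T D.hfac D.hirr₂.ne_zero hT hT' P,
    fun P => D.in_iff_of (1 - T) hfac' D.hirr₁.ne_zero hT1 hT1' P⟩
  rw [map_sub, map_one]
  ring

/-- **(TRIV)** on `A = W[x]` from (TRIV) on `W` and `τ x = x`. -/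
theorem triv (_D : H2Poly W π x G G₁ G₂) (τ : F ≃+* F) (hτx : τ x = x)
    (hτW : ∀ w ∈ W, H2Div (h2A W x) (algebraMap F₀ F π)
      (τ (algebraMap F₀ F w) - algebraMap F₀ F w)) :
    ∀ a ∈ h2A W x, H2Div (h2A W x) (algebraMap F₀ F π) (τ a - a) := by
  rintro a ⟨P, rfl⟩
  induction P using Polynomial.induction_on' with
  | add p q hp hq =>
    have : τ (h2ev W x (p + q)) - h2ev W x (p + q) =
        (τ (h2ev W x p) - h2ev W x p) + (τ (h2ev W x q) - h2ev W x q) := by
      rw [map_add, map_add]; ring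
    rw [this]
    exact h2Div_add hp hq
  | monomial n w =>
    have h1 : h2ev W x (Polynomial.monomial n w) = algebraMap F₀ F (w : F₀) * x ^ n := by
      rw [← Polynomial.C_mul_X_pow_eq_monomial, map_mul, map_pow, h2ev_C, h2ev_X]
    rw [h1, map_mul, map_pow, hτx, ← sub_mul]
    exact h2Div_mul_right (hτW w w.2) ((h2A W x).pow_mem (h2_x_mem W x) n)

end H2Poly

/-- **Weak form (degrees of the factors)**: `W` a valuation subring of `F₀`, `G ∈ W[X]` monic
whose reduction is a product of two irreducible polynomials.  Then every monic factor of `G`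
over `F₀` has degree `0`, `deg G₁`, `deg G₂` or `deg G`. -/
theorem h2_weak (W : ValuationSubring F₀) {G : W[X]} (hG : G.Monic)
    {G₁ G₂ : (IsLocalRing.ResidueField W)[X]}
    (hfac : G.map (IsLocalRing.residue W) = G₁ * G₂)
    (hirr₁ : Irreducible G₁) (hirr₂ : Irreducible G₂)
    {P : F₀[X]} (hP : P.Monic) (hdvd : P ∣ G.map W.subtype) :
    P.natDegree = 0 ∨ P.natDegree = G₁.natDegree ∨ P.natDegree = G₂.natDegree ∨
      P.natDegree = G.natDegree := by
  obtain ⟨P', hP'⟩ := IsIntegrallyClosed.eq_map_mul_C_of_dvd (R := W) F₀ hG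
    (show P ∣ G.map (algebraMap W F₀) from hdvd)
  rw [hP.leadingCoeff, map_one, mul_one] at hP'
  have hP'm : P'.Monic :=
    Polynomial.monic_of_injective (f := algebraMap W F₀) Subtype.val_injective (hP' ▸ hP)
  have hP'G : P' ∣ G :=
    (Polynomial.map_dvd_map (algebraMap W F₀) Subtype.val_injective hP'm).mp (hP' ▸ hdvd)
  have hdeg : P.natDegree = (P'.map (IsLocalRing.residue W)).natDegree := by
    rw [hP'm.natDegree_map, ← hP', hP'm.natDegree_map]
  have hGdeg : G.natDegree = G₁.natDegree + G₂.natDegree := by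
    rw [← hG.natDegree_map (IsLocalRing.residue W), hfac,
      Polynomial.natDegree_mul hirr₁.ne_zero hirr₂.ne_zero]
  set Q := P'.map (IsLocalRing.residue W) with hQ
  have hQdvd : Q ∣ G₁ * G₂ := by
    rw [← hfac]
    exact Polynomial.map_dvd _ hP'G
  have hunit : ∀ S : (IsLocalRing.ResidueField W)[X], IsUnit S → S.natDegree = 0 :=
    fun S hS => Polynomial.natDegree_eq_zero_of_isUnit hS
  have hassoc : ∀ S : (IsLocalRing.ResidueField W)[X], Associated G₂ S →
      S.natDegree = G₂.natDegree := by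
    rintro S ⟨u, rfl⟩
    rw [Polynomial.natDegree_mul hirr₂.ne_zero u.ne_zero, hunit _ u.isUnit, add_zero]
  rw [hdeg]
  by_cases h1 : G₁ ∣ Q
  · obtain ⟨S, hS⟩ := h1
    have hS0 : S ≠ 0 := by
      rintro rfl
      rw [mul_zero] at hS
      have := (hP'm.map (IsLocalRing.residue W)).ne_zero
      exact this hS
    have hSd : S ∣ G₂ := by
      rw [hS] at hQdvd
      exact (mul_dvd_mul_iff_left hirr₁.ne_zero).mp hQdvd
    rcases (Irreducible.dvd_iff hirr₂).mp hSd with hu | ha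
    · right; left
      rw [hS, Polynomial.natDegree_mul hirr₁.ne_zero hS0, hunit S hu, add_zero]
    · right; right; right
      rw [hS, Polynomial.natDegree_mul hirr₁.ne_zero hS0, hassoc S ha, hGdeg]
  · have hcop : IsCoprime G₁ Q := (Irreducible.coprime_iff_not_dvd hirr₁).mpr h1
    have hQ2 : Q ∣ G₂ := hcop.symm.dvd_of_dvd_mul_left hQdvd
    rcases (Irreducible.dvd_iff hirr₂).mp hQ2 with hu | ha
    · left
      exact hunit Q hu
    · right; right; left
      exact hassoc Q ha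

end Fermat.Agent.S34x.Val.H2
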