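import Mathlib
import Fermat.Agent.S18x.Dict.H20_GaussModular
import Fermat.Agent.S37x.Kron.H2_Kron

/-!
# S34, wave 10, stage (A) VAL2, instance leaf (RED) (helper6)

`K` a field, `O : ValuationSubring K` a discrete valuation ring with uniformiser `π` and
residue field `k` of characteristic `q` (a prime), `M ≥ 1` ANY level,
`W = gaussValM O M` the Gauss valuation ring of `F_M = modularFunctionFieldFullC K M`
(helper20), `κ_W` its residue field, `j̄` the residue of `j`.

* `h6ResEmb : κ_W →+* k((Q))`, induced by `gaussRedM`;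
* `h6_jbar_not_pow` : `j̄` is not an `n`-th power in `κ_W` for `n ≥ 2` (order `-1`);
* `h6G` : Kronecker's modular polynomial `Φ_q(X ; j) ∈ W[X]`, monic of degree `q + 1`, with
  root `j(Q^q)` (`h6G_root`);
* `h6_red` : `Φ_q(X ; j) mod 𝔪_W = (X - j̄^q) (X^q - j̄)`, the two factors being coprime and
  irreducible (`h6_red_coprime`, `h6_red_irr₁`, `h6_red_irr₂`);
* `h6_W1`, `h6_W2` : the element form of "`W` is a DVR with uniformiser `π`".

These are the inputs (RED), (W1), (W2), (G1) of helper2's abstract two-valuation core.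
-/

set_option autoImplicit false
set_option linter.unusedSectionVars false
set_option linter.style.haveILetI false

open ModularCurve Polynomial

noncomputable section

namespace Fermat.Agent.S34x.Val.H6

open Fermat.Agent.S18x.Dict.H20 Fermat.Agent.S37x.Kron.H2

variable {K : Type*} [Field K] (O : ValuationSubring K) [IsDiscreteValuationRing O] (M : ℕ)

/-! ### The residue field of the Gauss valuation inside `k((Q))` -/

instance h6_isLocalHom_gaussRedM : IsLocalHom (gaussRedM O M) :=
  ⟨fun _ ha => (isUnit_iff_gaussRedM_ne_zero O M).mpr ha.ne_zero⟩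

/-- The embedding of the residue field of the Gauss valuation ring of `F_M` into `k((Q))`. -/
def h6ResEmb : IsLocalRing.ResidueField (gaussValM O M) →+*
    LaurentSeries (IsLocalRing.ResidueField O) :=
  IsLocalRing.ResidueField.lift (gaussRedM O M)

theorem h6ResEmb_residue (x : gaussValM O M) :
    h6ResEmb O M (IsLocalRing.residue (gaussValM O M) x) = gaussRedM O M x :=
  IsLocalRing.ResidueField.lift_residue_apply _ x

theorem h6ResEmb_injective : Function.Injective (h6ResEmb O M) :=
  (h6ResEmb O M).injective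

/-- The residue of `j`. -/
def h6jbar : IsLocalRing.ResidueField (gaussValM O M) :=
  IsLocalRing.residue (gaussValM O M) (jM O M)

theorem h6ResEmb_jbar : h6ResEmb O M (h6jbar O M) = jqModC (IsLocalRing.ResidueField O) := by
  rw [h6jbar, h6ResEmb_residue, gaussRedM_jM]

theorem h6_order_jq (k : Type*) [Field k] : (jqModC k).order = -1 := by
  have hne : jqModC k ≠ 0 := jqModC_ne_zero_of_nontrivial k
  have h1 : (jqModC k).coeff (-1) ≠ 0 := by
    rw [coeff_jqModC_neg_one]; exact one_ne_zero
  have hle : (jqModC k).order ≤ -1 := HahnSeries.order_le_of_coeff_ne_zero h1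
  have hge : -1 ≤ (jqModC k).order := by
    by_contra hlt
    have hlt' : (jqModC k).order < -1 := not_le.mp hlt
    exact hne (HahnSeries.coeff_order_eq_zero.mp (coeff_jqModC_of_lt k hlt'))
  exact le_antisymm hle hge

/-- `j̄` is not an `n`-th power in the residue field, `n ≥ 2`. -/
theorem h6_jbar_not_pow (n : ℕ) (hn : 2 ≤ n) (b : IsLocalRing.ResidueField (gaussValM O M)) :
    b ^ n ≠ h6jbar O M := by
  intro h
  have h1 := congrArg (h6ResEmb O M) h
  rw [map_pow, h6ResEmb_jbar] at h1
  have h2 := congrArg HahnSeries.order h1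
  rw [HahnSeries.order_pow, h6_order_jq, nsmul_eq_mul] at h2
  have h3 : (n : ℤ) ∣ -1 := ⟨_, h2.symm⟩
  have h4 : (n : ℤ) ∣ 1 := (dvd_neg).mp h3
  have h5 : n ∣ 1 := by exact_mod_cast h4
  have := Nat.le_of_dvd one_pos h5
  omega

/-- `j̄^n ≠ j̄` for `n ≥ 2`. -/
theorem h6_jbar_pow_ne (n : ℕ) (hn : 2 ≤ n) : h6jbar O M ^ n ≠ h6jbar O M := by
  intro h
  have h1 := congrArg (h6ResEmb O M) h
  rw [map_pow, h6ResEmb_jbar] at h1
  have h2 := congrArg HahnSeries.order h1
  rw [HahnSeries.order_pow, h6_order_jq, nsmul_eq_mul] at h2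
  have : (n : ℤ) = 1 := by linarith
  have : n = 1 := by exact_mod_cast this
  omega

/-- The residue characteristic of `W` is the one of `O`. -/
theorem h6_natCast_res (q : ℕ) (hq0 : (q : IsLocalRing.ResidueField O) = 0) :
    (q : IsLocalRing.ResidueField (gaussValM O M)) = 0 := by
  apply h6ResEmb_injective O M
  rw [map_natCast, map_zero]
  have : ((q : ℕ) : LaurentSeries (IsLocalRing.ResidueField O)) =
      HahnSeries.C ((q : ℕ) : IsLocalRing.ResidueField O) := by
    rw [map_natCast]
  rw [this, hq0, map_zero]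

/-! ### Kronecker's polynomial over `W` -/

variable (q : ℕ) [NeZero q] (hq : q.Prime)

/-- The evaluation `ℤ[Y] → W`, `Y ↦ j`. -/
def h6evJ : ℤ[X] →+* gaussValM O M :=
  Polynomial.eval₂RingHom (Int.castRingHom (gaussValM O M)) (jM O M)

/-- **Kronecker's modular polynomial** `Φ_q(X ; j)` as a polynomial over the Gauss valuation
ring of `F_M`. -/
def h6G : Polynomial (gaussValM O M) := (h2kronPhi q hq).map (h6evJ O M)

theorem h6G_monic : (h6G O M q hq).Monic := (h2kronPhi_monic q hq).map _

theorem h6G_natDegree : (h6G O M q hq).natDegree = q + 1 := by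
  rw [h6G, (h2kronPhi_monic q hq).natDegree_map, h2kronPhi_natDegree]

/-- The inclusion `W → K((Q))`. -/
def h6incW : gaussValM O M →+* LaurentSeries K :=
  (algebraMap ↥(modularFunctionFieldFullC K M) (LaurentSeries K)).comp (gaussValM O M).subtype

theorem h6incW_apply (w : gaussValM O M) :
    h6incW O M w = ((w : ↥(modularFunctionFieldFullC K M)) : LaurentSeries K) := rfl

/-- `Φ_q(j(Q^q) ; j) = 0`. -/
theorem h6G_root :
    (h6G O M q hq).eval₂ (h6incW O M) (qExpand K q (jqModC K)) = 0 := by
  have h := h2kronPhi_rel₁ q hq K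
  unfold Fermat.Agent.S28.Deg.H9.ev2 at h
  rw [h6G, Polynomial.eval₂_map]
  have hcomp : (h6incW O M).comp (h6evJ O M) =
      Polynomial.eval₂RingHom (Int.castRingHom (LaurentSeries K)) (jqModC K) := by
    apply Polynomial.ringHom_ext
    · intro n
      simp [h6evJ]
    · simp only [h6evJ, RingHom.comp_apply, Polynomial.coe_eval₂RingHom, Polynomial.eval₂_X]
      rfl
  rw [hcomp]
  exact h

/-- The same, after mapping the coefficients to `F_M`. -/
theorem h6G_root' :
    ((h6G O M q hq).map (gaussValM O M).subtype).eval₂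
      (algebraMap ↥(modularFunctionFieldFullC K M) (LaurentSeries K))
      (qExpand K q (jqModC K)) = 0 := by
  rw [Polynomial.eval₂_map]
  exact h6G_root O M q hq

/-! ### (RED) -/

/-- **(RED)** Kronecker's congruence over the residue field of the Gauss valuation:
`Φ_q(X ; j) mod 𝔪_W = (X - j̄^q) (X^q - j̄)`. -/
theorem h6_red (hq0 : (q : IsLocalRing.ResidueField O) = 0) :
    (h6G O M q hq).map (IsLocalRing.residue (gaussValM O M)) =
      (X - C (h6jbar O M ^ q)) * (X ^ q - C (h6jbar O M)) := by
  have hS : (q : IsLocalRing.ResidueField (gaussValM O M)) = 0 := h6_natCast_res O M q hq0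
  set ψ : (ZMod q)[X] →+* IsLocalRing.ResidueField (gaussValM O M) :=
    Polynomial.eval₂RingHom (ZMod.castHom (ringChar.dvd hS) _) (h6jbar O M) with hψ
  have hcomp : (IsLocalRing.residue (gaussValM O M)).comp (h6evJ O M) =
      ψ.comp (Polynomial.mapRingHom (Int.castRingHom (ZMod q))) := by
    apply Polynomial.ringHom_ext
    · intro n
      simp [h6evJ, hψ]
    · simp [h6evJ, hψ, h6jbar]
  rw [h6G, Polynomial.map_map, hcomp, ← Polynomial.map_map, h2kronPhi_map]
  simp [hψ]

theorem h6_red_irr₁ : Irreducible (X - C (h6jbar O M ^ q) :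
    (IsLocalRing.ResidueField (gaussValM O M))[X]) :=
  Polynomial.irreducible_X_sub_C _

include hq in
theorem h6_red_irr₂ : Irreducible (X ^ q - C (h6jbar O M) :
    (IsLocalRing.ResidueField (gaussValM O M))[X]) :=
  X_pow_sub_C_irreducible_of_prime hq (fun b => h6_jbar_not_pow O M q hq.two_le b)

include hq in
theorem h6_red_coprime : IsCoprime (X - C (h6jbar O M ^ q) :
    (IsLocalRing.ResidueField (gaussValM O M))[X]) (X ^ q - C (h6jbar O M)) := by
  rw [(h6_red_irr₁ O M q).coprime_iff_not_dvd, Polynomial.dvd_iff_isRoot]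
  intro h
  have h1 : (h6jbar O M ^ q) ^ q - h6jbar O M = 0 := by
    simpa [Polynomial.IsRoot] using h
  have h2 : h6jbar O M ^ (q * q) = h6jbar O M := by
    rw [pow_mul]; exact sub_eq_zero.mp h1
  exact h6_jbar_pow_ne O M (q * q) (by nlinarith [hq.two_le]) h2

/-- The degrees of the two factors. -/
theorem h6_red_natDegree₁ : (X - C (h6jbar O M ^ q) :
    (IsLocalRing.ResidueField (gaussValM O M))[X]).natDegree = 1 :=
  Polynomial.natDegree_X_sub_C _

include hq in
theorem h6_red_natDegree₂ : (X ^ q - C (h6jbar O M) :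
    (IsLocalRing.ResidueField (gaussValM O M))[X]).natDegree = q :=
  Polynomial.natDegree_X_pow_sub_C

/-! ### (W1), (W2) -/

variable (π : O) (hπ : Irreducible π)

theorem h6_unifM_mem : unifM O M π ∈ gaussValM O M := by
  rw [mem_gaussValM_iff]
  have h := inclM_unifM O M π
  have h2 : ((unifM O M π : ↥(modularFunctionFieldFullC K M)) : LaurentSeries K) =
      HahnSeries.C (π : K) := h
  rw [h2]
  exact C_mem_gaussRing O π

include hπ in
theorem h6_unifM_ne_zero : unifM O M π ≠ 0 := by
  intro h
  have h1 : (π : K) = 0 := by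
    have := (algebraMap K ↥(modularFunctionFieldFullC K M)).injective
      (a₁ := (π : K)) (a₂ := 0) (by rw [map_zero]; exact h)
    exact this
  exact hπ.ne_zero (Subtype.ext h1)

include hπ in
/-- **(W1)**: every element of `W` is a unit of `W` or divisible by the uniformiser. -/
theorem h6_W1 (w : ↥(modularFunctionFieldFullC K M)) (hw : w ∈ gaussValM O M) :
    w⁻¹ ∈ gaussValM O M ∨ ∃ w' ∈ gaussValM O M, w = unifM O M π * w' := by
  by_cases hr : gaussRedM O M ⟨w, hw⟩ = 0
  · right
    obtain ⟨y, hy⟩ := exists_eq_mul_of_gaussRedM_eq_zero O M π hπ hr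
    exact ⟨y, y.2, hy⟩
  · left
    have hu : IsUnit (⟨w, hw⟩ : gaussValM O M) := (isUnit_iff_gaussRedM_ne_zero O M).mpr hr
    obtain ⟨u, hu⟩ := hu
    have h1 : w * ((u⁻¹ : (gaussValM O M)ˣ) : gaussValM O M) = 1 := by
      have := congrArg (Subtype.val) (u.mul_inv)
      rw [hu] at this
      exact this
    have h2 : w⁻¹ = ((u⁻¹ : (gaussValM O M)ˣ) : gaussValM O M) :=
      inv_eq_of_mul_eq_one_right h1
    rw [h2]
    exact Subtype.property _

include hπ in
/-- **(W2)**: every element of `F_M` is in `W` after multiplication by a power of `π`. -/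
theorem h6_W2 (c : ↥(modularFunctionFieldFullC K M)) :
    ∃ k : ℕ, unifM O M π ^ k * c ∈ gaussValM O M := by
  by_cases hc : c = 0
  · exact ⟨0, by rw [hc, mul_zero]; exact zero_mem _⟩
  obtain ⟨e, u, hcu, -⟩ := gaussValM_exists_zpow_mul O M π hπ hc
  have hπ0 := h6_unifM_ne_zero O M π hπ
  refine ⟨(-e).toNat, ?_⟩
  rw [hcu, ← mul_assoc, ← zpow_natCast, ← zpow_add₀ hπ0]
  have hnn : 0 ≤ ((-e).toNat : ℤ) + e := by omega
  obtain ⟨n, hn⟩ := Int.eq_ofNat_of_zero_le hnn
  rw [hn, zpow_natCast]
  exact mul_mem (pow_mem (h6_unifM_mem O M π) n) u.2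

end Fermat.Agent.S34x.Val.H6
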