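import Mathlib
import Fermat.Agent.S34x.Val.H2_TwoValPoly
import Fermat.Agent.S34x.Val.H6_Red
import Fermat.Agent.S18x.Dict.H20_GaussInputs
import Fermat.Agent.S18x.IG.H29_CoordInv
import Fermat.Agent.S34x.Sat.H21_SatInst

/-!
# S34, wave 10, stage (A) VAL2: the instance (helper6)

`K` a field of characteristic `0`, `O : ValuationSubring K` a discrete valuation ring with
uniformiser `π` and residue characteristic `q` (a prime), `M ∣ N`, `q ∣ N` (in the application
`N = M q`, `q ∤ M`), `F_M ⊆ F_N` the modular function fields inside `K((Q))`,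
`W = gaussValM O M`, `j_q = j(Q^q) ∈ F_N`.

* `h6V` : the two-component ring `V = W[j_q] ⊆ F_N` (helper2's `h2A`);
* `h6V_le_gens` : `V ≤ ⟨F_M ∩ (Gauss ring), j(Q^p)⟩` (the hypothesis `hV` of helper21's (SAT));
* `h6_hOV`, `h6_coord_mem`, `h6_coord_inv_mem` : `O ⊆ V`, the Hauptmodul and its inverse are
  in `V`;
* `h6_poly` : helper2's `H2Poly` for `(W, π, j_q, Φ_q(X ; j))` from the two generation
  statements `hdeg`, `hgen` (helper9's (GEN));
* `h6_two` : `V / πV` is a product of two fields (`H2Two`), with the description of the two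
  maximal ideals; `h6_hVic`, `h6_hπV` : the hypotheses `hVic`, `hπV` of `h26_spec`.
-/

set_option autoImplicit false
set_option linter.unusedSectionVars false
set_option linter.style.haveILetI false

open ModularCurve Polynomial

noncomputable section

namespace Fermat.Agent.S34x.Val.H6

open Fermat.Agent.S18x.Dict.H20 Fermat.Agent.S37x.Kron.H2 Fermat.Agent.S28.Asm
  Fermat.Agent.S18x.Qepo Fermat.Agent.S34x.Val.H2 Fermat.Agent.S34x.Sat.H21
  Fermat.Agent.S18x.IG.H29

variable {K : Type} [Field K] (O : ValuationSubring K) [IsDiscreteValuationRing O]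
  (M N : ℕ) [NeZero M] [NeZero N] (hMN : M ∣ N) (q : ℕ) [NeZero q] (hq : q.Prime) (hqN : q ∣ N)

/-- The inclusion `F_M → F_N`. -/
def h6incl : FM K M →+* FM K N where
  toFun x := ⟨(x : LaurentSeries K), full_degeneracyC_le K hMN x.2⟩
  map_one' := rfl
  map_mul' _ _ := rfl
  map_zero' := rfl
  map_add' _ _ := rfl

theorem h6incl_coe (x : FM K M) :
    ((h6incl M N hMN x : FM K N) : LaurentSeries K) = (x : LaurentSeries K) :=
  Subtype.coe_mk (x : LaurentSeries K) (full_degeneracyC_le K hMN x.2)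

/-- `F_N` as an algebra over `F_M`. -/
@[reducible] def h6alg : Algebra (FM K M) (FM K N) := (h6incl M N hMN).toAlgebra

/-- Evaluation at `j_q`: `W[X] → F_N`. -/
def h6ev : (gaussValM O M)[X] →+* FM K N :=
  letI := h6alg (K := K) M N hMN
  h2ev (gaussValM O M) (jbdFull K N q hqN)

/-- **The two-component ring** `V = W[j_q]`. -/
def h6V : Subring (FM K N) :=
  letI := h6alg (K := K) M N hMN
  h2A (gaussValM O M) (jbdFull K N q hqN)

theorem h6ev_mem (P : (gaussValM O M)[X]) : h6ev O M N hMN q hqN P ∈ h6V O M N hMN q hqN :=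
  ⟨P, rfl⟩

theorem h6V_mem_iff' {z : FM K N} :
    z ∈ h6V O M N hMN q hqN ↔ ∃ P : (gaussValM O M)[X], h6ev O M N hMN q hqN P = z := Iff.rfl

theorem h6ev_coe (P : (gaussValM O M)[X]) :
    ((h6ev O M N hMN q hqN P : FM K N) : LaurentSeries K) =
      P.eval₂ (h6incW O M) (qExpand K q (jqModC K)) := by
  have h1 : ((h6ev O M N hMN q hqN P : FM K N) : LaurentSeries K) =
      algebraMap (FM K N) (LaurentSeries K) (h6ev O M N hMN q hqN P) := rfl
  rw [h1]
  unfold h6ev h2ev
  rw [Polynomial.coe_eval₂RingHom, Polynomial.hom_eval₂]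
  rfl

theorem h6V_mem_iff {z : FM K N} :
    z ∈ h6V O M N hMN q hqN ↔
      ∃ P : (gaussValM O M)[X],
        P.eval₂ (h6incW O M) (qExpand K q (jqModC K)) = (z : LaurentSeries K) := by
  constructor
  · rintro ⟨P, rfl⟩
    exact ⟨P, (h6ev_coe O M N hMN q hqN P).symm⟩
  · rintro ⟨P, hP⟩
    refine ⟨P, Subtype.ext ?_⟩
    rw [← hP]
    exact h6ev_coe O M N hMN q hqN P

theorem h6ev_C (w : gaussValM O M) :
    h6ev O M N hMN q hqN (C w) = h6incl M N hMN (w : FM K M) := by
  letI := h6alg (K := K) M N hMN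
  exact h2ev_C (gaussValM O M) (jbdFull K N q hqN) w

theorem h6ev_X : h6ev O M N hMN q hqN X = jbdFull K N q hqN := by
  letI := h6alg (K := K) M N hMN
  exact h2ev_X (gaussValM O M) (jbdFull K N q hqN)

/-- `j_q ∈ V`. -/
theorem h6V_jq : jbdFull K N q hqN ∈ h6V O M N hMN q hqN :=
  ⟨X, h6ev_X O M N hMN q hqN⟩

/-- `W ⊆ V`. -/
theorem h6V_incl (w : FM K M) (hw : w ∈ gaussValM O M) :
    h6incl M N hMN w ∈ h6V O M N hMN q hqN :=
  ⟨C ⟨w, hw⟩, h6ev_C O M N hMN q hqN ⟨w, hw⟩⟩

/-- `F_M ∩ (Gauss ring) ⊆ V`. -/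
theorem h6V_of_levelM (y : FM K N)
    (hyM : (y : LaurentSeries K) ∈ modularFunctionFieldFullC K M)
    (hyV : (y : LaurentSeries K) ∈ gaussRing O) : y ∈ h6V O M N hMN q hqN := by
  have h := h6V_incl O M N hMN q hqN ⟨(y : LaurentSeries K), hyM⟩ hyV
  have h2 : h6incl M N hMN ⟨(y : LaurentSeries K), hyM⟩ = y := Subtype.ext rfl
  rwa [h2] at h

section Gens

variable [Algebra O (FM K M)] [IsScalarTower O K (FM K M)]
  [Algebra O (FM K N)] [IsScalarTower O K (FM K N)]

/-- **`V` is contained in the subring generated by `F_M ∩ (Gauss ring)` and the `j(Q^p)`**: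
the hypothesis `hV` of helper21's saturation theorems `h21_sat_coord2`, `h21_sat_coord3`. -/
theorem h6V_le_gens (hq : q.Prime) :
    h6V O M N hMN q hqN ≤ Subring.closure (h21_gens O M N) := by
  rintro z ⟨P, rfl⟩
  show h6ev O M N hMN q hqN P ∈ _
  induction P using Polynomial.induction_on' with
  | add p r hp hr =>
    rw [map_add]
    exact Subring.add_mem _ hp hr
  | monomial n w =>
    rw [← Polynomial.C_mul_X_pow_eq_monomial, map_mul, map_pow, h6ev_C, h6ev_X]
    have h1 : h6incl M N hMN (w : FM K M) ∈ h21_gens O M N :=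
      Set.mem_union_left _ ⟨(w : FM K M).2, w.2⟩
    have h2 : jbdFull K N q hqN ∈ h21_gens O M N :=
      Set.mem_union_right _ ⟨q, inferInstance, hq, hqN, rfl⟩
    exact Subring.mul_mem _ (Subring.subset_closure h1)
      (Subring.pow_mem _ (Subring.subset_closure h2) n)

/-- `hOV`. -/
theorem h6_hOV (c : O) : algebraMap O (FM K N) c ∈ h6V O M N hMN q hqN := by
  refine h6V_of_levelM O M N hMN q hqN _ ?_ ?_
  · rw [coe_algebraMap_O]
    have : (HahnSeries.C (c : K) : LaurentSeries K) =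
        algebraMap K (LaurentSeries K) (c : K) := by
      rw [algebraMap_laurentSeries_eq_single, HahnSeries.C_apply]
    rw [this]
    exact (modularFunctionFieldFullC K M).algebraMap_mem _
  · rw [coe_algebraMap_O]
    exact C_mem_gaussRing O c

/-- The uniformiser of `F_M`, seen in `F_N`. -/
theorem h6incl_unifM (π : O) :
    h6incl M N hMN (unifM O M π) = algebraMap O (FM K N) π := by
  apply Subtype.ext
  rw [h6incl_coe, coe_algebraMap_O]
  exact inclM_unifM O M π

end Gens

/-! ### The coordinates -/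

section Coord

variable (x₀ : LaurentSeries ℤ) (hlead : x₀.coeff (-1) = 1)
  (hmemM : coeffMap (Int.castRingHom K) x₀ ∈ modularFunctionFieldFullC K M)
  (hmemN : coeffMap (Int.castRingHom K) x₀ ∈ modularFunctionFieldFullC K N)

include hmemM in
/-- `hjV` : a coordinate of level `M` with integral `q`-expansion lies in `V`. -/
theorem h6_coord_mem : coordM K N x₀ hmemN ∈ h6V O M N hMN q hqN :=
  h6V_of_levelM O M N hMN q hqN _ hmemM (coeffMap_int_mem_gaussRing O x₀)

include hlead hmemM in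
/-- `hj'V` : the inverse of a coordinate of level `M` with integral `q`-expansion and leading
coefficient `1` lies in `V`. -/
theorem h6_coord_inv_mem : (coordM K N x₀ hmemN)⁻¹ ∈ h6V O M N hMN q hqN := by
  have h := h6V_incl O M N hMN q hqN _ (coordM_inv_mem_gaussValM O M x₀ hlead hmemM)
  have h2 : h6incl M N hMN (coordM K M x₀ hmemM)⁻¹ = (coordM K N x₀ hmemN)⁻¹ := by
    rw [map_inv₀]
    congr 1
  rwa [h2] at h

end Coord

/-! ### helper2's `H2Poly` for `(W, π, j_q, Φ_q(X ; j))` -/

section Poly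

variable [Algebra O (FM K M)] [IsScalarTower O K (FM K M)]
  [Algebra O (FM K N)] [IsScalarTower O K (FM K N)]
  (π : O) (hπ : Irreducible π)

include hπ in
/-- `hπu`. -/
theorem h6_unifM_inv_not_mem : (unifM O M π)⁻¹ ∉ gaussValM O M := by
  intro h
  refine hπV_gaussValM O M π hπ _ h ?_
  rw [algebraMap_O_eq_unifM]
  exact mul_inv_cancel₀ (h6_unifM_ne_zero O M π hπ)

/-- The comparison of the evaluation in `F_N` with the evaluation in `K((Q))`. -/
theorem h6_aeval_coe (P : (FM K M)[X]) :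
    letI := h6alg (K := K) M N hMN
    ((Polynomial.aeval (jbdFull K N q hqN) P : FM K N) : LaurentSeries K) =
      P.eval₂ (algebraMap (FM K M) (LaurentSeries K)) (qExpand K q (jqModC K)) := by
  letI := h6alg (K := K) M N hMN
  have h1 : ((Polynomial.aeval (jbdFull K N q hqN) P : FM K N) : LaurentSeries K) =
      algebraMap (FM K N) (LaurentSeries K) (Polynomial.aeval (jbdFull K N q hqN) P) := rfl
  rw [h1, Polynomial.aeval_def, Polynomial.hom_eval₂]
  rfl

/-- The two generation statements, in the spelling of `K((Q))`: the minimal degree of a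
relation of `j_q` over `F_M` is `q + 1`, and `F_N = F_M[j_q]`. -/
def H6Gen : Prop :=
  (∀ H : (FM K M)[X], H ≠ 0 →
    H.eval₂ (algebraMap (FM K M) (LaurentSeries K)) (qExpand K q (jqModC K)) = 0 →
      q + 1 ≤ H.natDegree) ∧
  (∀ z : FM K N, ∃ P : (FM K M)[X],
    P.eval₂ (algebraMap (FM K M) (LaurentSeries K)) (qExpand K q (jqModC K)) =
      (z : LaurentSeries K))

include hπ in
/-- **helper2's `H2Poly`** for the Gauss valuation ring of `F_M`, the uniformiser of `O`,
`j_q ∈ F_N` and Kronecker's polynomial. -/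
theorem h6_poly (hq0 : (q : IsLocalRing.ResidueField O) = 0)
    (hgen : H6Gen (K := K) M N q) :
    letI := h6alg (K := K) M N hMN
    H2Poly (gaussValM O M) (unifM O M π) (jbdFull K N q hqN) (h6G O M q hq)
      (X - C (h6jbar O M ^ q)) (X ^ q - C (h6jbar O M)) := by
  letI := h6alg (K := K) M N hMN
  have hroot : Polynomial.aeval (jbdFull K N q hqN)
      ((h6G O M q hq).map (gaussValM O M).subtype) = 0 := by
    apply Subtype.ext
    rw [h6_aeval_coe M N hMN q hqN]
    exact h6G_root' O M q hq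
  refine
    { hπW := h6_unifM_mem O M π
      hπ0 := h6_unifM_ne_zero O M π hπ
      hπu := h6_unifM_inv_not_mem O M π hπ
      hmax := fun w hw => h6_W1 O M π hπ w hw
      hdvr := h6_W2 O M π hπ
      hG := h6G_monic O M q hq
      hmin := ?_
      hgen := ?_
      hfac := h6_red O M q hq hq0
      hcop := h6_red_coprime O M q hq
      hirr₁ := h6_red_irr₁ O M q
      hirr₂ := h6_red_irr₂ O M q hq }
  · symm
    refine minpoly.unique _ _ ((h6G_monic O M q hq).map _) hroot ?_
    intro r hr hr0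
    have h1 : r.eval₂ (algebraMap (FM K M) (LaurentSeries K)) (qExpand K q (jqModC K)) = 0 := by
      rw [← h6_aeval_coe M N hMN q hqN, hr0]
      rfl
    have h2 := hgen.1 r hr.ne_zero h1
    rw [Polynomial.degree_eq_natDegree ((h6G_monic O M q hq).map _).ne_zero,
      Polynomial.degree_eq_natDegree hr.ne_zero,
      (h6G_monic O M q hq).natDegree_map, h6G_natDegree]
    exact_mod_cast h2
  · intro z
    obtain ⟨P, hP⟩ := hgen.2 z
    refine ⟨P, Subtype.ext ?_⟩
    rw [h6_aeval_coe M N hMN q hqN]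
    exact hP

include hπ hq in
/-- **Stage (A)**: `V / πV` is a product of two fields, with the description of the two maximal
ideals `𝔪_∞ = (π, j_q - j^q)` (`G₁ = X - j̄^q`) and `𝔪_0 = (π, j_q^q - j)` (`G₂ = X^q - j̄`). -/
theorem h6_two (hq0 : (q : IsLocalRing.ResidueField O) = 0)
    (hgen : H6Gen (K := K) M N q) :
    ∃ e₁ e₂ : FM K N,
      H2Two (h6V O M N hMN q hqN) (algebraMap O (FM K N) π) e₁ e₂ ∧
      (∀ P : (gaussValM O M)[X],
        H2In (h6V O M N hMN q hqN) (algebraMap O (FM K N) π) e₁ (h6ev O M N hMN q hqN P) ↔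
          (X - C (h6jbar O M ^ q)) ∣ P.map (IsLocalRing.residue (gaussValM O M))) ∧
      (∀ P : (gaussValM O M)[X],
        H2In (h6V O M N hMN q hqN) (algebraMap O (FM K N) π) e₂ (h6ev O M N hMN q hqN P) ↔
          (X ^ q - C (h6jbar O M)) ∣ P.map (IsLocalRing.residue (gaussValM O M))) := by
  letI := h6alg (K := K) M N hMN
  have D := h6_poly O M N hMN q hq hqN π hπ hq0 hgen
  have hπeq : algebraMap (FM K M) (FM K N) (unifM O M π) = algebraMap O (FM K N) π :=
    h6incl_unifM O M N hMN π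
  obtain ⟨e₁, e₂, h2, h1, h3⟩ := D.exists_two
  rw [hπeq] at h2
  refine ⟨e₁, e₂, h2, fun P => ?_, fun P => ?_⟩
  · have := h1 P
    rw [hπeq] at this
    exact this
  · have := h3 P
    rw [hπeq] at this
    exact this

include hπ hq in
/-- `hVic` of `h26_spec`. -/
theorem h6_hVic (hq0 : (q : IsLocalRing.ResidueField O) = 0)
    (hgen : H6Gen (K := K) M N q) :
    ∀ y : FM K N, IsIntegral (h6V O M N hMN q hqN) y → y ∈ h6V O M N hMN q hqN := by
  obtain ⟨e₁, e₂, h2, -, -⟩ := h6_two O M N hMN q hq hqN π hπ hq0 hgen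
  exact fun y hy => h2.integrallyClosed hy

include hπ hq in
/-- `hπV` of `h26_spec`. -/
theorem h6_hπV (hq0 : (q : IsLocalRing.ResidueField O) = 0)
    (hgen : H6Gen (K := K) M N q) :
    ∀ v ∈ h6V O M N hMN q hqN, algebraMap O (FM K N) π * v ≠ 1 := by
  obtain ⟨e₁, e₂, h2, -, -⟩ := h6_two O M N hMN q hq hqN π hπ hq0 hgen
  exact fun v hv => h2.pi_mul_ne_one hv

include hπ in
/-- **(TRIV)** on `V` from (TRIV) on `W` and `τ j_q = j_q`. -/
theorem h6_triv (τ : FM K N ≃+* FM K N) (hτx : τ (jbdFull K N q hqN) = jbdFull K N q hqN)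
    (hτW : ∀ w ∈ gaussValM O M,
      H2Div (h6V O M N hMN q hqN) (algebraMap O (FM K N) π)
        (τ (h6incl M N hMN w) - h6incl M N hMN w)) :
    ∀ a ∈ h6V O M N hMN q hqN,
      H2Div (h6V O M N hMN q hqN) (algebraMap O (FM K N) π) (τ a - a) := by
  rintro a ⟨P, rfl⟩
  show H2Div _ _ (τ (h6ev O M N hMN q hqN P) - h6ev O M N hMN q hqN P)
  induction P using Polynomial.induction_on' with
  | add p r hp hr =>
    have : τ (h6ev O M N hMN q hqN (p + r)) - h6ev O M N hMN q hqN (p + r) =
        (τ (h6ev O M N hMN q hqN p) - h6ev O M N hMN q hqN p) +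
          (τ (h6ev O M N hMN q hqN r) - h6ev O M N hMN q hqN r) := by
      rw [map_add, map_add]; ring
    rw [this]
    exact h2Div_add hp hr
  | monomial n w =>
    have h1 : h6ev O M N hMN q hqN (Polynomial.monomial n w) =
        h6incl M N hMN (w : FM K M) * jbdFull K N q hqN ^ n := by
      rw [← Polynomial.C_mul_X_pow_eq_monomial, map_mul, map_pow, h6ev_C, h6ev_X]
    rw [h1, map_mul, map_pow, hτx, ← sub_mul]
    exact h2Div_mul_right (hτW w w.2) (Subring.pow_mem _ (h6V_jq O M N hMN q hqN) n)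

include hπ hq in
/-- **(U)**: `τ g / g ∈ V` and `g / τ g ∈ V` for every `g ≠ 0` (the hypothesis `hU` of
helper26's `h26_ss_abs`). -/
theorem h6_hU (hq0 : (q : IsLocalRing.ResidueField O) = 0)
    (hgen : H6Gen (K := K) M N q)
    (τ : FM K N ≃+* FM K N) (ε ε' : O) (hεε' : ε * ε' = 1)
    (hτπ : τ (algebraMap O (FM K N) π) = algebraMap O (FM K N) ε * algebraMap O (FM K N) π)
    (htriv : ∀ a ∈ h6V O M N hMN q hqN,
      H2Div (h6V O M N hMN q hqN) (algebraMap O (FM K N) π) (τ a - a))
    (g : FM K N) (hg : g ≠ 0) :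
    τ g / g ∈ h6V O M N hMN q hqN ∧ g / τ g ∈ h6V O M N hMN q hqN := by
  obtain ⟨e₁, e₂, h2, -, -⟩ := h6_two O M N hMN q hq hqN π hπ hq0 hgen
  refine h2.unit_quot τ (algebraMap O (FM K N) ε) (algebraMap O (FM K N) ε')
    (h6_hOV O M N hMN q hqN ε) (h6_hOV O M N hMN q hqN ε') ?_ hτπ htriv hg
  rw [← map_mul, hεε', map_one]

end Poly

end Fermat.Agent.S34x.Val.H6
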