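import Mathlib
import Fermat.Agent.S34x.Val.H6_Inst
import Fermat.Agent.S34x.Desc.H12_TauF

/-!
# S34, wave 10, stage (A) VAL2: the inertia side of the instance (helper6)

`σ : K ≃+* K` a ring automorphism preserving `O` and acting trivially on its residue field
(helper12's hypotheses `hO`, `hres`), `τ = tauF N σ` the coefficientwise automorphism of
`F_N` (helper12).  For the two-component ring `V = h6V = W[j_q]`:

* `h6_tauF_incl`, `h6_tauF_jq` : `τ` restricts to `tauF M σ` on `F_M` and fixes `j_q`;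
* `h6_htriv_inst` : `τ v - v ∈ π V` for every `v ∈ V` (the hypothesis `htriv` of the gluing
  theorems, verbatim);
* `h6_tau_mem` : `τ V ⊆ V`;
* `h6_hU_inst` : `τ g / g ∈ V` and `g / τ g ∈ V` for every `g ≠ 0` (the hypothesis `hU`,
  verbatim);
* `h6_tauF_unif` : `τ π = ε π`.
-/

set_option autoImplicit false
set_option linter.unusedSectionVars false
set_option linter.style.haveILetI false

open ModularCurve Polynomial

noncomputable section

namespace Fermat.Agent.S34x.Val.H6

open Fermat.Agent.S18x.Dict.H20 Fermat.Agent.S37x.Kron.H2 Fermat.Agent.S28.Asm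
  Fermat.Agent.S18x.Qepo Fermat.Agent.S34x.Val.H2 Fermat.Agent.S34x.Desc.H12

variable {K : Type} [Field K] (O : ValuationSubring K) [IsDiscreteValuationRing O]
  (M N : ℕ) [NeZero M] [NeZero N] (hMN : M ∣ N) (q : ℕ) [NeZero q] (hq : q.Prime) (hqN : q ∣ N)
  (σ : K ≃+* K)

/-- `tauF` at level `N` restricts to `tauF` at level `M`. -/
theorem h6_tauF_incl (w : FM K M) :
    tauF N σ (h6incl M N hMN w) = h6incl M N hMN (tauF M σ w) := by
  apply Subtype.ext
  rw [h6incl_coe, coe_tauF, coe_tauF, h6incl_coe]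

/-- `tauF` fixes `j_q`. -/
theorem h6_tauF_jq : tauF N σ (jbdFull K N q hqN) = jbdFull K N q hqN :=
  tauF_jd N σ q hqN

section Triv

variable [Algebra O (FM K M)] [IsScalarTower O K (FM K M)]
  [Algebra O (FM K N)] [IsScalarTower O K (FM K N)]
  (hO : ∀ a ∈ O, σ a ∈ O)
  (hres : ∀ a : O, IsLocalRing.residue O (resO O (σ : K →+* K) hO a) = IsLocalRing.residue O a)
  (π : O) (hπ : Irreducible π)

include hres hπ in
/-- **(TRIV)** for `V = W[j_q]` and the coefficientwise automorphism: VERBATIM `htriv`. -/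
theorem h6_htriv_inst :
    ∀ v ∈ h6V O M N hMN q hqN, ∃ c ∈ h6V O M N hMN q hqN,
      tauF N σ v - v = algebraMap O (FM K N) π * c := by
  refine h6_triv O M N hMN q hqN π hπ (tauF N σ) (h6_tauF_jq N q hqN σ) ?_
  intro w hw
  obtain ⟨c, hc, hc'⟩ := h12_triv O M σ hO hres π hπ w hw
  refine ⟨h6incl M N hMN c, h6V_incl O M N hMN q hqN c hc, ?_⟩
  rw [h6_tauF_incl, ← map_sub, hc', map_mul, h6incl_unifM]

include hres hπ in
/-- `τ V ⊆ V`. -/
theorem h6_tau_mem :
    ∀ v ∈ h6V O M N hMN q hqN, tauF N σ v ∈ h6V O M N hMN q hqN := by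
  intro v hv
  obtain ⟨c, hc, hc'⟩ := h6_htriv_inst O M N hMN q hqN σ hO hres π hπ v hv
  have : tauF N σ v = v + algebraMap O (FM K N) π * c := by rw [← hc']; ring
  rw [this]
  exact Subring.add_mem _ hv (Subring.mul_mem _ (h6_hOV O M N hMN q hqN π) hc)

/-- `τ π = ε π`. -/
theorem h6_tauF_unif (ε : O) (hσπ : σ (π : K) = (ε : K) * (π : K)) :
    tauF N σ (algebraMap O (FM K N) π) =
      algebraMap O (FM K N) ε * algebraMap O (FM K N) π := by
  apply Subtype.ext
  rw [coe_tauF]
  have h1 : ((algebraMap O (FM K N) ε * algebraMap O (FM K N) π : FM K N) : LaurentSeries K) =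
      ((algebraMap O (FM K N) ε : FM K N) : LaurentSeries K) *
        ((algebraMap O (FM K N) π : FM K N) : LaurentSeries K) := rfl
  rw [h1, coe_algebraMap_O, coe_algebraMap_O, ← map_mul, ← hσπ]
  have h2 : (HahnSeries.C (π : K) : LaurentSeries K) = algebraMap K (LaurentSeries K) (π : K) := by
    rw [algebraMap_laurentSeries_eq_single, HahnSeries.C_apply]
  have h3 : (HahnSeries.C (σ (π : K)) : LaurentSeries K) =
      algebraMap K (LaurentSeries K) (σ (π : K)) := by
    rw [algebraMap_laurentSeries_eq_single, HahnSeries.C_apply]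
  rw [h2, h3]
  exact coeffMap_algebraMap (σ : K →+* K) (π : K)

include hres hπ hq in
/-- **(U)** for `V = W[j_q]` and the coefficientwise automorphism: VERBATIM `hU`. -/
theorem h6_hU_inst (hq0 : (q : IsLocalRing.ResidueField O) = 0)
    (hgen : H6Gen (K := K) M N q)
    (ε ε' : O) (hεε' : ε * ε' = 1) (hσπ : σ (π : K) = (ε : K) * (π : K)) :
    ∀ g : FM K N, g ≠ 0 →
      tauF N σ g / g ∈ h6V O M N hMN q hqN ∧ g / tauF N σ g ∈ h6V O M N hMN q hqN :=
  fun g hg => h6_hU O M N hMN q hq hqN π hπ hq0 hgen (tauF N σ) ε ε' hεε'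
    (h6_tauF_unif O N σ π ε hσπ)
    (h6_htriv_inst O M N hMN q hqN σ hO hres π hπ) g hg

end Triv

end Fermat.Agent.S34x.Val.H6
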