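import Mathlib
import Fermat.Agent.S34x.Val.H2_TwoValPoly

/-!
# W10 / S34, stage (A) VAL2, the assembly in abstract form (helper28)

Input: the data `D : H2Poly W π x G G₁ G₂` of helper2's abstract core (`W` a valuation subring of
`F₀` with uniformiser `π`, `F = F₀(x)`, `G` the monic minimal polynomial of `x`, `G mod π = G₁ G₂`
with coprime irreducible factors).

Output, for `A := h2A W x = W[x]` and `π₀ := algebraMap F₀ F π`:

* two valuation subrings `h28V₁ D`, `h28V₂ D` of `F` with `A = V₁ ∩ V₂` (`h28_mem_iff`);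
* `π₀` is a uniformiser of both (`h28_pi_nonunit₁/₂`, `h28_nonunits_div₁/₂`);
* `𝔪₁ ∩ 𝔪₂ ∩ A = π₀ A` (`h28_cap`);
* `A` is integrally closed in `F` (`h28_hVic`), `π₀` is not a unit of `A` (`h28_hπV`);
* the residue field of `V_i` is `A / 𝔪_i` (`h28_residue₁/₂`), `P(x) ∈ 𝔪_i ↔ G_i ∣ P mod π`
  (`h28_nonunits_iff₁/₂`);
* `V_i ∩ F₀ = W` (`h28_alpha₁/₂`);
* if `G₁ = X - C c` then the residue field of `V₁` is the residue field of `W`
  (`h28_residue_lin`);
* (TRIV) and (U) for an automorphism `τ` with `τ x = x` (`h28_htriv`, `h28_hU`).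
-/

set_option autoImplicit false

open Polynomial

namespace Fermat.Agent.S34x.Val.H28

open Fermat.Agent.S34x.Val.H2

section Comp

variable {F : Type*} [Field F] {A : Subring F} {π e : F}

/-- `π` is a non-unit of `V_e`. -/
theorem h28c_pi_nonunit (h : H2Comp A π e) : π ∈ h.val.nonunits := by
  rw [ValuationSubring.mem_nonunits_iff_or]
  exact Or.inr h.pi_inv_not_mem

/-- A multiple of `π` in `V_e` is a non-unit. -/
theorem h28c_mul_nonunit (h : H2Comp A π e) {z : F} (hz : z ∈ h.val) :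
    π * z ∈ h.val.nonunits := by
  rw [ValuationSubring.mem_nonunits_iff_or]
  by_cases h0 : π * z = 0
  · exact Or.inl h0
  refine Or.inr fun hinv => h.pi_inv_not_mem ?_
  have hz0 : z ≠ 0 := fun hz0 => h0 (by rw [hz0, mul_zero])
  have : π⁻¹ = (π * z)⁻¹ * z := by
    rw [mul_inv, mul_assoc, inv_mul_cancel₀ hz0, mul_one]
  rw [this]
  exact h.val.mul_mem _ _ hinv hz

/-- The maximal ideal of `V_e` is generated by `π`. -/
theorem h28c_nonunits_div (h : H2Comp A π e) {z : F} (hz : z ∈ h.val.nonunits) :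
    ∃ z' ∈ h.val, z = π * z' := by
  have hzV : z ∈ h.val := ValuationSubring.nonunits_subset (A := h.val) hz
  rcases h.val_unit_or_div hzV with h1 | h1
  · rw [ValuationSubring.mem_nonunits_iff_or] at hz
    rcases hz with h0 | h0
    · exact ⟨0, h.val.zero_mem, by rw [h0, mul_zero]⟩
    · exact absurd h1 h0
  · exact h1

/-- For `a ∈ A`: `a ∈ 𝔪_e ↔ a` is a non-unit of `V_e`. -/
theorem h28c_in_iff (h : H2Comp A π e) {a : F} (ha : a ∈ A) :
    H2In A π e a ↔ a ∈ h.val.nonunits := by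
  constructor
  · intro hin
    obtain ⟨z, hz, rfl⟩ := h.in_div_val hin
    exact h28c_mul_nonunit h hz
  · intro hnu
    by_contra hnin
    have hinv := h.inv_mem_val ha hnin
    rw [ValuationSubring.mem_nonunits_iff_or] at hnu
    rcases hnu with h0 | h0
    · apply hnin
      rw [h0]
      unfold H2In
      rw [zero_mul]
      exact h2Div_zero A π
    · exact h0 hinv

/-- The residue field of `V_e` is `A / 𝔪_e`. -/
theorem h28c_residue (h : H2Comp A π e) {z : F} (hz : z ∈ h.val) :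
    ∃ a ∈ A, z - a ∈ h.val.nonunits := by
  obtain ⟨a, ha, z', hz', hzz⟩ := h.val_residue hz
  refine ⟨a, ha, ?_⟩
  have : z - a = π * z' := by rw [hzz]; ring
  rw [this]
  exact h28c_mul_nonunit h hz'

end Comp

section Poly

variable {F₀ F : Type*} [Field F₀] [Field F] [Algebra F₀ F]
  {W : ValuationSubring F₀} {π : F₀} {x : F} {G : W[X]}
  {G₁ G₂ : (IsLocalRing.ResidueField W)[X]}

/-- The first idempotent modulo `π`. -/
noncomputable def h28e₁ (D : H2Poly W π x G G₁ G₂) : F := Classical.choose D.exists_two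

/-- The second idempotent modulo `π`. -/
noncomputable def h28e₂ (D : H2Poly W π x G G₁ G₂) : F :=
  Classical.choose (Classical.choose_spec D.exists_two)

theorem h28_spec (D : H2Poly W π x G G₁ G₂) :
    H2Two (h2A W x) (algebraMap F₀ F π) (h28e₁ D) (h28e₂ D) ∧
      (∀ P : W[X], H2In (h2A W x) (algebraMap F₀ F π) (h28e₁ D) (h2ev W x P) ↔
        G₁ ∣ P.map (IsLocalRing.residue W)) ∧
      (∀ P : W[X], H2In (h2A W x) (algebraMap F₀ F π) (h28e₂ D) (h2ev W x P) ↔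
        G₂ ∣ P.map (IsLocalRing.residue W)) :=
  Classical.choose_spec (Classical.choose_spec D.exists_two)

theorem h28_two (D : H2Poly W π x G G₁ G₂) :
    H2Two (h2A W x) (algebraMap F₀ F π) (h28e₁ D) (h28e₂ D) := (h28_spec D).1

/-- The valuation subring of the first component (the one of `G₁`). -/
noncomputable def h28V₁ (D : H2Poly W π x G G₁ G₂) : ValuationSubring F := (h28_two D).c₁.val

/-- The valuation subring of the second component (the one of `G₂`). -/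
noncomputable def h28V₂ (D : H2Poly W π x G G₁ G₂) : ValuationSubring F := (h28_two D).c₂.val

/-- `A = V₁ ∩ V₂`. -/
theorem h28_mem_iff (D : H2Poly W π x G G₁ G₂) {z : F} :
    z ∈ h2A W x ↔ z ∈ h28V₁ D ∧ z ∈ h28V₂ D := (h28_two D).mem_iff

theorem h28_le₁ (D : H2Poly W π x G G₁ G₂) {z : F} (hz : z ∈ h2A W x) : z ∈ h28V₁ D :=
  ((h28_mem_iff D).mp hz).1

theorem h28_le₂ (D : H2Poly W π x G G₁ G₂) {z : F} (hz : z ∈ h2A W x) : z ∈ h28V₂ D :=
  ((h28_mem_iff D).mp hz).2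

theorem h28_pi_nonunit₁ (D : H2Poly W π x G G₁ G₂) : algebraMap F₀ F π ∈ (h28V₁ D).nonunits :=
  h28c_pi_nonunit (h28_two D).c₁

theorem h28_pi_nonunit₂ (D : H2Poly W π x G G₁ G₂) : algebraMap F₀ F π ∈ (h28V₂ D).nonunits :=
  h28c_pi_nonunit (h28_two D).c₂

theorem h28_nonunits_div₁ (D : H2Poly W π x G G₁ G₂) {z : F} (hz : z ∈ (h28V₁ D).nonunits) :
    ∃ z' ∈ h28V₁ D, z = algebraMap F₀ F π * z' := h28c_nonunits_div (h28_two D).c₁ hz

theorem h28_nonunits_div₂ (D : H2Poly W π x G G₁ G₂) {z : F} (hz : z ∈ (h28V₂ D).nonunits) :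
    ∃ z' ∈ h28V₂ D, z = algebraMap F₀ F π * z' := h28c_nonunits_div (h28_two D).c₂ hz

theorem h28_mul_nonunit₁ (D : H2Poly W π x G G₁ G₂) {z : F} (hz : z ∈ h28V₁ D) :
    algebraMap F₀ F π * z ∈ (h28V₁ D).nonunits := h28c_mul_nonunit (h28_two D).c₁ hz

theorem h28_mul_nonunit₂ (D : H2Poly W π x G G₁ G₂) {z : F} (hz : z ∈ h28V₂ D) :
    algebraMap F₀ F π * z ∈ (h28V₂ D).nonunits := h28c_mul_nonunit (h28_two D).c₂ hz

/-- `𝔪₁ ∩ 𝔪₂ ∩ A = π A`. -/
theorem h28_cap (D : H2Poly W π x G G₁ G₂) {v : F} (hv : v ∈ h2A W x)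
    (h₁ : v ∈ (h28V₁ D).nonunits) (h₂ : v ∈ (h28V₂ D).nonunits) :
    ∃ c ∈ h2A W x, v = algebraMap F₀ F π * c :=
  (h28_two D).div_of_in ((h28c_in_iff (h28_two D).c₁ hv).mpr h₁)
    ((h28c_in_iff (h28_two D).c₂ hv).mpr h₂)

/-- `A` is integrally closed in `F`: VERBATIM `hVic`. -/
theorem h28_hVic (D : H2Poly W π x G G₁ G₂) :
    ∀ y : F, IsIntegral (h2A W x) y → y ∈ h2A W x := fun _ hy => (h28_two D).integrallyClosed hy

/-- `π` is not a unit of `A`: VERBATIM `hπV`. -/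
theorem h28_hπV (D : H2Poly W π x G G₁ G₂) :
    ∀ v ∈ h2A W x, algebraMap F₀ F π * v ≠ 1 := fun _ hv => (h28_two D).pi_mul_ne_one hv

/-- `F = A[1/π]`. -/
theorem h28_hfrac (D : H2Poly W π x G G₁ G₂) (z : F) :
    ∃ k : ℕ, (algebraMap F₀ F π) ^ k * z ∈ h2A W x := D.hfrac z

theorem h28_residue₁ (D : H2Poly W π x G G₁ G₂) {z : F} (hz : z ∈ h28V₁ D) :
    ∃ a ∈ h2A W x, z - a ∈ (h28V₁ D).nonunits := h28c_residue (h28_two D).c₁ hz

theorem h28_residue₂ (D : H2Poly W π x G G₁ G₂) {z : F} (hz : z ∈ h28V₂ D) :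
    ∃ a ∈ h2A W x, z - a ∈ (h28V₂ D).nonunits := h28c_residue (h28_two D).c₂ hz

/-- `P(x) ∈ 𝔪₁ ↔ G₁ ∣ P mod π`. -/
theorem h28_nonunits_iff₁ (D : H2Poly W π x G G₁ G₂) (P : W[X]) :
    h2ev W x P ∈ (h28V₁ D).nonunits ↔ G₁ ∣ P.map (IsLocalRing.residue W) := by
  rw [← (h28_spec D).2.1 P]
  exact (h28c_in_iff (h28_two D).c₁ (h2ev_mem W x P)).symm

/-- `P(x) ∈ 𝔪₂ ↔ G₂ ∣ P mod π`. -/
theorem h28_nonunits_iff₂ (D : H2Poly W π x G G₁ G₂) (P : W[X]) :
    h2ev W x P ∈ (h28V₂ D).nonunits ↔ G₂ ∣ P.map (IsLocalRing.residue W) := by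
  rw [← (h28_spec D).2.2 P]
  exact (h28c_in_iff (h28_two D).c₂ (h2ev_mem W x P)).symm

/-- A valuation subring of `F` containing `W`, in which `π` is a non-unit, meets `F₀` in `W`. -/
theorem h28_alpha_gen (D : H2Poly W π x G G₁ G₂) (V : ValuationSubring F)
    (hWV : ∀ w ∈ W, algebraMap F₀ F w ∈ V) (hπV : algebraMap F₀ F π ∈ V.nonunits) (w : F₀) :
    algebraMap F₀ F w ∈ V ↔ w ∈ W := by
  refine ⟨fun hw => ?_, hWV w⟩
  by_contra hnW
  have hinv : w⁻¹ ∈ W := (W.mem_or_inv_mem w).resolve_left hnW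
  rcases D.hmax w⁻¹ hinv with h1 | ⟨w', hw', h1⟩
  · rw [inv_inv] at h1
    exact hnW h1
  · have hw0 : w ≠ 0 := fun h0 => hnW (h0 ▸ W.zero_mem)
    have h2 : algebraMap F₀ F π * (algebraMap F₀ F w' * algebraMap F₀ F w) = 1 := by
      rw [← map_mul, ← map_mul, ← mul_assoc, ← h1, inv_mul_cancel₀ hw0, map_one]
    have h3 : (algebraMap F₀ F π)⁻¹ ∈ V := by
      have : (algebraMap F₀ F π)⁻¹ = algebraMap F₀ F w' * algebraMap F₀ F w :=
        inv_eq_of_mul_eq_one_right h2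
      rw [this]
      exact V.mul_mem _ _ (hWV w' hw') hw
    rw [ValuationSubring.mem_nonunits_iff_or] at hπV
    rcases hπV with h0 | h0
    · rw [h0, zero_mul] at h2
      exact zero_ne_one h2
    · exact h0 h3

/-- `V₁ ∩ F₀ = W`. -/
theorem h28_alpha₁ (D : H2Poly W π x G G₁ G₂) (w : F₀) :
    algebraMap F₀ F w ∈ h28V₁ D ↔ w ∈ W :=
  h28_alpha_gen D _ (fun _ hw => h28_le₁ D (h2_algebraMap_mem W x hw)) (h28_pi_nonunit₁ D) w

/-- `V₂ ∩ F₀ = W`. -/
theorem h28_alpha₂ (D : H2Poly W π x G G₁ G₂) (w : F₀) :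
    algebraMap F₀ F w ∈ h28V₂ D ↔ w ∈ W :=
  h28_alpha_gen D _ (fun _ hw => h28_le₂ D (h2_algebraMap_mem W x hw)) (h28_pi_nonunit₂ D) w

/-- A non-unit of `W` is a non-unit of `V₁`, and conversely. -/
theorem h28_alpha_nonunits₁ (D : H2Poly W π x G G₁ G₂) (w : F₀) :
    algebraMap F₀ F w ∈ (h28V₁ D).nonunits ↔ w ∈ W.nonunits := by
  rw [ValuationSubring.mem_nonunits_iff_or, ValuationSubring.mem_nonunits_iff_or, ← map_inv₀,
    h28_alpha₁ D, map_eq_zero]

/-- A non-unit of `W` is a non-unit of `V₂`, and conversely. -/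
theorem h28_alpha_nonunits₂ (D : H2Poly W π x G G₁ G₂) (w : F₀) :
    algebraMap F₀ F w ∈ (h28V₂ D).nonunits ↔ w ∈ W.nonunits := by
  rw [ValuationSubring.mem_nonunits_iff_or, ValuationSubring.mem_nonunits_iff_or, ← map_inv₀,
    h28_alpha₂ D, map_eq_zero]

/-- If `G₁ = X - C c` is linear, the residue field of `V₁` is the residue field of `W`. -/
theorem h28_residue_lin (D : H2Poly W π x G G₁ G₂) (c : IsLocalRing.ResidueField W)
    (hG₁ : G₁ = X - C c) {z : F} (hz : z ∈ h28V₁ D) :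
    ∃ w ∈ W, z - algebraMap F₀ F w ∈ (h28V₁ D).nonunits := by
  obtain ⟨a, ⟨P, rfl⟩, ha⟩ := h28_residue₁ D hz
  obtain ⟨w, hw⟩ := IsLocalRing.residue_surjective (R := W)
    ((P.map (IsLocalRing.residue W)).eval c)
  refine ⟨(w : F₀), w.2, ?_⟩
  have h1 : h2ev W x (P - C w) ∈ (h28V₁ D).nonunits := by
    rw [h28_nonunits_iff₁ D, hG₁, Polynomial.dvd_iff_isRoot, Polynomial.IsRoot,
      Polynomial.map_sub, Polynomial.map_C, Polynomial.eval_sub, Polynomial.eval_C, hw, sub_self]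
  have h2 : z - algebraMap F₀ F (w : F₀) = (z - h2ev W x P) + h2ev W x (P - C w) := by
    rw [map_sub, h2ev_C]
    ring
  rw [h2]
  exact (h28V₁ D).nonunits.add_mem ha h1

/-- **(TRIV)** on `A`: VERBATIM `htriv` (with `π₀ = algebraMap F₀ F π`). -/
theorem h28_htriv (D : H2Poly W π x G G₁ G₂) (τ : F ≃+* F) (hτx : τ x = x)
    (hτW : ∀ w ∈ W, ∃ c ∈ h2A W x,
      τ (algebraMap F₀ F w) - algebraMap F₀ F w = algebraMap F₀ F π * c) :
    ∀ v ∈ h2A W x, ∃ c ∈ h2A W x, τ v - v = algebraMap F₀ F π * c :=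
  D.triv τ hτx hτW

/-- **(U)**: VERBATIM `hU`. -/
theorem h28_hU (D : H2Poly W π x G G₁ G₂) (τ : F ≃+* F) (hτx : τ x = x)
    (hτW : ∀ w ∈ W, ∃ c ∈ h2A W x,
      τ (algebraMap F₀ F w) - algebraMap F₀ F w = algebraMap F₀ F π * c)
    (ε ε' : F) (hε : ε ∈ h2A W x) (hε' : ε' ∈ h2A W x) (hεε' : ε * ε' = 1)
    (hτπ : τ (algebraMap F₀ F π) = ε * algebraMap F₀ F π) :
    ∀ g : F, g ≠ 0 → τ g / g ∈ h2A W x ∧ g / τ g ∈ h2A W x := fun _ hg =>
  (h28_two D).unit_quot τ ε ε' hε hε' hεε' hτπ (D.triv τ hτx hτW) hg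

end Poly

end Fermat.Agent.S34x.Val.H28
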