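import Mathlib
import Fermat.Agent.S34x.Val.H6_Inst
import Fermat.Agent.S34x.Sat.H1_SatInst

/-!
# S34, wave 10, stage (A) VAL2: bridges between the spellings (helper6)

* `h6alg_unique` : every algebra structure of `F_N` over `F_M` whose `algebraMap` is the
  inclusion (on Laurent series) is `h6alg`; `h6alg_eq` : the one of `IntermediateField.inclusion`;
* `h6V_eq_h2A` : `h6V = h2A W j_q` for every such algebra structure;
* `h6V_eq_h1V` : `h6V` is helper1's ring `h1V`;
* `h6Gen_of_min_gen` : the two generation statements in helper2's spelling (`hmin`, `hgen` of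
  `H2Poly`) give `H6Gen`;
* `h6_poly_of_alg` : helper2's `H2Poly` for every such algebra structure.
-/

set_option autoImplicit false
set_option linter.unusedSectionVars false
set_option linter.style.haveILetI false

open ModularCurve Polynomial

noncomputable section

namespace Fermat.Agent.S34x.Val.H6

open Fermat.Agent.S18x.Dict.H20 Fermat.Agent.S37x.Kron.H2 Fermat.Agent.S28.Asm
  Fermat.Agent.S18x.Qepo Fermat.Agent.S34x.Val.H2 Fermat.Agent.S34x.Sat.H1

variable {K : Type} [Field K] (O : ValuationSubring K) [IsDiscreteValuationRing O]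
  (M N : ℕ) [NeZero M] [NeZero N] (hMN : M ∣ N) (q : ℕ) [NeZero q] (hq : q.Prime) (hqN : q ∣ N)

/-- **Uniqueness of the algebra structure.** -/
theorem h6alg_unique (inst : Algebra (FM K M) (FM K N))
    (halg : ∀ w : FM K M,
      ((@algebraMap (FM K M) (FM K N) _ _ inst w : FM K N) : LaurentSeries K) =
        (w : LaurentSeries K)) :
    inst = h6alg (K := K) M N hMN := by
  refine Algebra.algebra_ext _ _ fun w => Subtype.ext ?_
  rw [halg w]
  exact (h6incl_coe M N hMN w).symm

theorem h6alg_eq :
    h6alg (K := K) M N hMN =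
      (IntermediateField.inclusion (full_degeneracyC_le K hMN)).toRingHom.toAlgebra :=
  (h6alg_unique M N hMN _ (fun w =>
    Subtype.coe_mk (w : LaurentSeries K) (full_degeneracyC_le K hMN w.2))).symm

/-- `h6V` is helper2's `h2A W j_q` for every algebra structure given by the inclusion. -/
theorem h6V_eq_h2A [inst : Algebra (FM K M) (FM K N)]
    (halg : ∀ w : FM K M,
      ((algebraMap (FM K M) (FM K N) w : FM K N) : LaurentSeries K) = (w : LaurentSeries K)) :
    h6V O M N hMN q hqN = h2A (gaussValM O M) (jbdFull K N q hqN) := by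
  have h := h6alg_unique M N hMN inst halg
  subst h
  rfl

/-- `h6V` is helper1's ring. -/
theorem h6V_eq_h1V : h6V O M N hMN q hqN = h1V O M N q hqN := by
  apply le_antisymm
  · rintro z ⟨P, rfl⟩
    show h6ev O M N hMN q hqN P ∈ _
    induction P using Polynomial.induction_on' with
    | add p r hp hr =>
      rw [map_add]
      exact Subring.add_mem _ hp hr
    | monomial n w =>
      rw [← Polynomial.C_mul_X_pow_eq_monomial, map_mul, map_pow, h6ev_C, h6ev_X]
      have h1 : h6incl M N hMN (w : FM K M) ∈ h1V O M N q hqN :=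
        h1_alpha_mem_V O M N q hqN (v := h6incl M N hMN (w : FM K M)) (w : FM K M).2 w.2
      exact Subring.mul_mem _ h1 (Subring.pow_mem _ (h1_jq_mem_V O M N q hqN) n)
  · refine Subring.closure_le.mpr ?_
    rintro v (⟨hvM, hvV⟩ | hv)
    · exact h6V_of_levelM O M N hMN q hqN v hvM hvV
    · rw [Set.mem_singleton_iff] at hv
      rw [hv]
      exact h6V_jq O M N hMN q hqN

section Gen

variable [Algebra O (FM K M)] [IsScalarTower O K (FM K M)]
  [Algebra O (FM K N)] [IsScalarTower O K (FM K N)]

include hMN in
/-- **(GEN) in helper2's spelling gives `H6Gen`.** -/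
theorem h6Gen_of_min_gen [inst : Algebra (FM K M) (FM K N)]
    (halg : ∀ w : FM K M,
      ((algebraMap (FM K M) (FM K N) w : FM K N) : LaurentSeries K) = (w : LaurentSeries K))
    (hmin : minpoly (FM K M) (jbdFull K N q hqN) =
      (h6G O M q hq).map (gaussValM O M).subtype)
    (hgen : ∀ z : FM K N, ∃ P : (FM K M)[X], Polynomial.aeval (jbdFull K N q hqN) P = z) :
    H6Gen (K := K) M N q := by
  have h := h6alg_unique M N hMN inst halg
  subst h
  letI := h6alg (K := K) M N hMN
  constructor
  · intro H hH hH0
    have h1 : Polynomial.aeval (jbdFull K N q hqN) H = 0 := by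
      apply Subtype.ext
      rw [h6_aeval_coe M N hMN q hqN, hH0]
      rfl
    have h2 := Polynomial.natDegree_le_natDegree
      (minpoly.degree_le_of_ne_zero (FM K M) (jbdFull K N q hqN) hH h1)
    rw [hmin, (h6G_monic O M q hq).natDegree_map, h6G_natDegree] at h2
    exact h2
  · intro z
    obtain ⟨P, hP⟩ := hgen z
    refine ⟨P, ?_⟩
    rw [← h6_aeval_coe M N hMN q hqN, hP]

variable (π : O) (hπ : Irreducible π)

include hπ hMN in
/-- **helper2's `H2Poly`** for every algebra structure given by the inclusion. -/
theorem h6_poly_of_alg [inst : Algebra (FM K M) (FM K N)]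
    (halg : ∀ w : FM K M,
      ((algebraMap (FM K M) (FM K N) w : FM K N) : LaurentSeries K) = (w : LaurentSeries K))
    (hq0 : (q : IsLocalRing.ResidueField O) = 0) (hgen : H6Gen (K := K) M N q) :
    H2Poly (gaussValM O M) (unifM O M π) (jbdFull K N q hqN) (h6G O M q hq)
      (X - C (h6jbar O M ^ q)) (X ^ q - C (h6jbar O M)) := by
  have h := h6alg_unique M N hMN inst halg
  subst h
  exact h6_poly O M N hMN q hq hqN π hπ hq0 hgen

end Gen

end Fermat.Agent.S34x.Val.H6
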