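import Mathlib
import Fermat.Agent.S34x.Val.H6_Bridge
import Fermat.Agent.S18x.Desc.H19_InstK
import Fermat.Agent.S28.Deg.H8_Psi

/-!
# S34, wave 10, stage (A) VAL2: (GEN) from the degree and the lower bound (helper6)

`F_M ⊆ F_N` inside `K((Q))`, `N = M q`, `q ∤ M`, `K` of characteristic `0`.

* `h6_finrank_incl` : `[B : A]` for the inclusion algebra is `relfinrank A B` (generic);
* `h6_relfinrank` : `[F_{Mq} : F_M] = q + 1`;
* `h6Gen_of_core` : if every non-zero polynomial over `F_M` vanishing at `j_q = j(Q^q)` has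
  degree `≥ q` (the Laurent-series core of (GEN): swap + linear independence of
  `1, j, …, j^(q-1)` over `K((Q^q))`), then `H6Gen M N q`: the minimal degree is `q + 1` and
  `F_N = F_M[j_q]`.
-/

set_option autoImplicit false
set_option linter.unusedSectionVars false
set_option linter.style.haveILetI false
set_option synthInstance.maxHeartbeats 400000
set_option maxHeartbeats 1000000

open ModularCurve Polynomial IntermediateField

noncomputable section

namespace Fermat.Agent.S34x.Val.H6

open Fermat.Agent.S18x.Dict.H20 Fermat.Agent.S37x.Kron.H2 Fermat.Agent.S28.Asm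
  Fermat.Agent.S18x.Qepo Fermat.Agent.S34x.Val.H2

section Generic

variable {k E₀ : Type*} [Field k] [Field E₀] [Algebra k E₀]

/-- `[B : A]` for the inclusion algebra, as a relative degree. -/
theorem h6_finrank_incl (A B : IntermediateField k E₀) (h : A ≤ B) :
    @Module.finrank ↥A ↥B _ _
      (IntermediateField.inclusion h).toRingHom.toAlgebra.toModule = relfinrank A B := by
  rw [relfinrank_eq_finrank_of_le h]
  letI : Algebra ↥A ↥B := (IntermediateField.inclusion h).toRingHom.toAlgebra
  exact Algebra.finrank_eq_of_equiv_equiv (RingEquiv.refl ↥A)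
    (RingEquiv.refl _ : ↥B ≃+* ↥(IntermediateField.extendScalars h)) (by ext a; rfl)

end Generic

variable {K : Type} [Field K] [CharZero K]
  (M N : ℕ) [NeZero M] [NeZero N] (hMN : M ∣ N) (q : ℕ) [NeZero q] (hq : q.Prime) (hqN : q ∣ N)

include hMN in
/-- `[F_N : F_M]` for `h6alg`, as a relative degree. -/
theorem h6_finrank_eq_relfinrank :
    @Module.finrank (FM K M) (FM K N) _ _ (h6alg (K := K) M N hMN).toModule =
      relfinrank (modularFunctionFieldFullC K M) (modularFunctionFieldFullC K N) := by
  rw [h6alg_eq M N hMN]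
  exact h6_finrank_incl _ _ (full_degeneracyC_le K hMN)

include hq hMN in
/-- `[F_{Mq} : F_M] = q + 1` for `q ∤ M`. -/
theorem h6_relfinrank (hN : N = M * q) (hqM : ¬ q ∣ M) :
    relfinrank (modularFunctionFieldFullC K M) (modularFunctionFieldFullC K N) = q + 1 := by
  subst hN
  have h1 := Fermat.Agent.S18x.Desc.H19.h19_psi_mul_relfinrank K hMN
    (degC_char_zero K M).2 (degC_char_zero K (M * q)).2
  rw [Fermat.Agent.S28.Deg.H8.psi_mul_prime_of_not_dvd M q hq hqM, mul_comm] at h1
  exact Nat.eq_of_mul_eq_mul_right (Fermat.Agent.S28.Deg.H8.psi_pos M) h1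

include hq hMN hqN in
/-- **(GEN) from the Laurent-series core.** -/
theorem h6Gen_of_core
    (hrel : relfinrank (modularFunctionFieldFullC K M) (modularFunctionFieldFullC K N) = q + 1)
    (hcore : ∀ H : (FM K M)[X], H ≠ 0 →
      H.eval₂ (algebraMap (FM K M) (LaurentSeries K)) (qExpand K q (jqModC K)) = 0 →
        q ≤ H.natDegree) :
    H6Gen (K := K) M N q := by
  letI := h6alg (K := K) M N hMN
  have hfr : Module.finrank (FM K M) (FM K N) = q + 1 := by
    rw [← hrel]
    exact h6_finrank_eq_relfinrank M N hMN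
  haveI : FiniteDimensional (FM K M) (FM K N) :=
    Module.finite_of_finrank_pos (by rw [hfr]; exact Nat.succ_pos q)
  set x : FM K N := jbdFull K N q hqN with hx
  have hint : IsIntegral (FM K M) x := IsIntegral.of_finite (FM K M) x
  have hmin0 : minpoly (FM K M) x ≠ 0 := minpoly.ne_zero hint
  -- the lower bound
  have hlow : q ≤ (minpoly (FM K M) x).natDegree := by
    refine hcore _ hmin0 ?_
    rw [← h6_aeval_coe M N hMN q hqN, minpoly.aeval]
    rfl
  -- the divisibility
  have hdvd : (minpoly (FM K M) x).natDegree ∣ q + 1 := by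
    rw [← hfr, ← IntermediateField.adjoin.finrank hint]
    exact ⟨_, (Module.finrank_mul_finrank (FM K M) (FM K M)⟮x⟯ (FM K N)).symm⟩
  have hdeg : (minpoly (FM K M) x).natDegree = q + 1 := by
    obtain ⟨c, hc⟩ := hdvd
    have hq2 := hq.two_le
    rcases Nat.lt_or_ge c 2 with hc2 | hc2
    · interval_cases c
      · omega
      · omega
    · have : 2 * q ≤ (minpoly (FM K M) x).natDegree * c :=
        Nat.mul_le_mul hlow hc2 |>.trans_eq' (by ring)
      omega
  constructor
  · intro H hH hH0
    have h1 : Polynomial.aeval x H = 0 := by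
      apply Subtype.ext
      rw [h6_aeval_coe M N hMN q hqN, hH0]
      rfl
    have h2 := Polynomial.natDegree_le_natDegree (minpoly.degree_le_of_ne_zero (FM K M) x hH h1)
    rw [hdeg] at h2
    exact h2
  · intro z
    have htop : (FM K M)⟮x⟯ = ⊤ :=
      (Field.primitive_element_iff_minpoly_natDegree_eq (FM K M) x).mpr (hdeg.trans hfr.symm)
    have hz : z ∈ (FM K M)⟮x⟯.toSubalgebra := by
      rw [htop]
      exact Algebra.mem_top
    rw [IntermediateField.adjoin_simple_toSubalgebra_of_isAlgebraic hint.isAlgebraic,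
      Algebra.adjoin_singleton_eq_range_aeval] at hz
    obtain ⟨P, hP⟩ := hz
    refine ⟨P, ?_⟩
    rw [← h6_aeval_coe M N hMN q hqN]
    exact congrArg Subtype.val hP

end Fermat.Agent.S34x.Val.H6
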