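import Mathlib
import Fermat.Agent.S34x.Val.H6_GenDeg
import Fermat.Agent.S37x.Norm.H3_Swap
import Fermat.Agent.S28.Mod.H22_Charpoly
import Fermat.Agent.S18x.Desc.H19_Bridge

/-!
# S34, wave 10, stage (A) VAL2: the Laurent-series core of (GEN) and (GEN) itself (helper6)

`K` a field of characteristic `0` with an embedding `e : K →+* ℂ`, `q` a prime not dividing `M`.

* `h6_core` : every non-zero polynomial over `F_M` vanishing at `j_q = j(Q^q)` has degree `≥ q`
  (helper3's swap symmetry `h3_swap` + helper22's linear independence of `1, j, …, j^(q-1)` over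
  `K((Q^q))`, `eval_ne_zero_of_natDegree_lt`);
* `h6Gen` : **(GEN)** `H6Gen M (M * q) q`, with no hypothesis left besides `e`.
-/

set_option autoImplicit false
set_option linter.unusedSectionVars false
set_option linter.style.haveILetI false
set_option synthInstance.maxHeartbeats 400000
set_option maxHeartbeats 1000000

open ModularCurve Polynomial IntermediateField

noncomputable section

namespace Fermat.Agent.S34x.Val.H6

open Fermat.Agent.S18x.Dict.H20 Fermat.Agent.S37x.Kron.H2 Fermat.Agent.S28.Asm
  Fermat.Agent.S18x.Qepo Fermat.Agent.S34x.Val.H2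

variable {K : Type} [Field K] [CharZero K] (e : K →+* ℂ)
  (M : ℕ) [NeZero M] (q : ℕ) [NeZero q] (hq : q.Prime)

include e hq in
/-- **The Laurent-series core of (GEN)**: a non-zero polynomial over `F_M` vanishing at
`j(Q^q)`, `q ∤ M`, has degree at least `q`. -/
theorem h6_core (hqM : ¬ q ∣ M) :
    ∀ H : (FM K M)[X], H ≠ 0 →
      H.eval₂ (algebraMap (FM K M) (LaurentSeries K)) (qExpand K q (jqModC K)) = 0 →
        q ≤ H.natDegree := by
  intro H hH h0
  by_contra hlt
  have hlt' : H.natDegree < q := not_le.mp hlt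
  have hinj : Function.Injective (algebraMap (FM K M) (LaurentSeries K)) :=
    (algebraMap (FM K M) (LaurentSeries K)).injective
  set H' : (LaurentSeries K)[X] := H.map (algebraMap (FM K M) (LaurentSeries K)) with hH'def
  have hH' : H' ≠ 0 := (Polynomial.map_ne_zero_iff hinj).mpr hH
  have hdeg : H'.natDegree < q := by
    rw [hH'def, Polynomial.natDegree_map_eq_of_injective hinj]
    exact hlt'
  have hev : H'.eval (qExpand K q (jqModC K)) = 0 := by
    rw [hH'def, Polynomial.eval_map]
    exact h0
  have hFK : Fermat.Agent.S24.Real.FK K M = modularFunctionFieldFullC K M :=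
    Fermat.Agent.S18x.Desc.H19.h19_laurentBaseChange_eq K M
  have hcop : Nat.Coprime q M := (Nat.Prime.coprime_iff_not_dvd hq).mpr hqM
  have hswap := Fermat.Agent.S37x.Norm.H3.h3_swap e M q hcop H'
    (fun i => by
      rw [hFK, hH'def, Polynomial.coeff_map]
      exact (H.coeff i).2)
    (jqModC K) (by rw [hFK]; exact jqModC_mem_full K M) hev
  refine Fermat.Agent.S28.Mod.Form.eval_ne_zero_of_natDegree_lt q
    (jqModC_ne_zero_of_nontrivial K) ?_ hH' hdeg hswap
  rw [h6_order_jq K]
  simp

include e hq in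
/-- **(GEN)**: the minimal degree of a relation of `j_q` over `F_M` is `q + 1`, and
`F_{Mq} = F_M[j_q]`. -/
theorem h6Gen [NeZero (M * q)] (hqM : ¬ q ∣ M) : H6Gen (K := K) M (M * q) q :=
  h6Gen_of_core M (M * q) (Dvd.intro q rfl) q hq (Dvd.intro_left M rfl)
    (h6_relfinrank M (M * q) (Dvd.intro q rfl) q hq rfl hqM) (h6_core e M q hq hqM)

include e hq in
/-- (GEN) for a level `N` with `N = M * q`. -/
theorem h6Gen' (N : ℕ) [NeZero N] (hMN : M ∣ N) (hqN : q ∣ N) (hN : N = M * q)
    (hqM : ¬ q ∣ M) : H6Gen (K := K) M N q :=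
  h6Gen_of_core M N hMN q hq hqN (h6_relfinrank M N hMN q hq hN hqM) (h6_core e M q hq hqM)

end Fermat.Agent.S34x.Val.H6
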