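import Mathlib
import Fermat.Agent.S34x.Val.H6_GenCore

/-!
# S34, wave 10, stage (A) VAL2: (GEN) over a subfield of `ℚ̄` (helper6)

* `h6_exists_emb` : every intermediate field `K` of `ℚ̄ / ℚ` embeds into `ℂ`;
* `h6GenK` : `H6Gen M N q` over such a `K`, for `N = M * q`, `q ∤ M`: stage (A) has no
  hypothesis left over a number field.
-/

set_option autoImplicit false
set_option linter.unusedSectionVars false
set_option linter.style.haveILetI false

open ModularCurve Polynomial IntermediateField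

noncomputable section

namespace Fermat.Agent.S34x.Val.H6

/-- Every intermediate field of `ℚ̄ / ℚ` embeds into `ℂ`. -/
theorem h6_exists_emb (K : IntermediateField ℚ (AlgebraicClosure ℚ)) : Nonempty (↥K →+* ℂ) :=
  haveI : Algebra.IsAlgebraic ℚ (AlgebraicClosure ℚ) := AlgebraicClosure.isAlgebraic ℚ
  ⟨((IsAlgClosed.lift (R := ℚ) (S := AlgebraicClosure ℚ) (M := ℂ)).toRingHom).comp
    (algebraMap ↥K (AlgebraicClosure ℚ))⟩

/-- **(GEN) over a subfield of `ℚ̄`**. -/
theorem h6GenK (K : IntermediateField ℚ (AlgebraicClosure ℚ)) (M : ℕ) [NeZero M] (q : ℕ)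
    [NeZero q] (hq : q.Prime) (N : ℕ) [NeZero N] (hMN : M ∣ N) (hqN : q ∣ N) (hN : N = M * q)
    (hqM : ¬ q ∣ M) : H6Gen (K := ↥K) M N q := by
  obtain ⟨e⟩ := h6_exists_emb K
  exact h6Gen' e M q hq N hMN hqN hN hqM

end Fermat.Agent.S34x.Val.H6
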