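import Mathlib
import Fermat.Agent.S34x.Val.H28_Val2Abs
import Fermat.Agent.S34x.Val.H6_Red
import Fermat.Agent.S34x.Sat.H1_SatInst
import Fermat.Agent.S18x.Dict.H7_KumInst
import Fermat.Agent.S18x.Dict.H20_GaussInputs

/-!
# W10 / S34, stage (A) VAL2, the INSTANCE (helper28)

Setting: `K` a field of characteristic `0`, `O : ValuationSubring K` a discrete valuation ring
with uniformiser `π` and residue characteristic `q`, levels `M ∣ N`, `q ∣ N` (application:
`N = M q`, `q ∤ M`), `F₀ = F_M`, `F = F_N`, `x = j_q = j(Q^q) ∈ F_N`, `W = gaussValM O M`.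

The ring is helper1's `V = h1V O M N q hqN = V_M[j_q]` (closure of `(F_M ∩ Gauss ring) ∪ {j_q}`).

* `h28alg` : the inclusion algebra `F_M → F_N` (never a global instance);
* `H28Data` : helper2's `H2Poly` at `(W, π, j_q, Φ_q(X ; j), X - j̄^q, X^q - j̄)`;
* `h28_data` : `H28Data` from (GEN) + (G2) (the two facts `hmin`, `hgen` of helper9) and
  helper6's (RED), (W1), (W2), (G1);
* `h28_h1V_eq` : `h1V = W[j_q]`;
* `h28i_hVic`, `h28i_hOV`, `h28i_hπV`, `h28i_htriv`, `h28i_hU` : the hypotheses `hVic`, `hOV`,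
  `hπV`, `htriv`, `hU` of the abstract second-difference theorem, VERBATIM, for `V = h1V`;
* `h28Voo`, `h28Vzero` : the two valuation subrings, with `V = V_∞ ∩ V_0` and all the facts of
  `H28_Val2Abs` transported.
-/

set_option autoImplicit false
set_option linter.unusedSectionVars false
set_option linter.unusedVariables false
set_option linter.style.haveILetI false
set_option synthInstance.maxHeartbeats 400000
set_option maxHeartbeats 1000000

open ModularCurve Polynomial

noncomputable section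

namespace Fermat.Agent.S34x.Val.H28

open Fermat.Agent.S18x.Dict.H20 Fermat.Agent.S28.Asm Fermat.Agent.S28.Alg
  Fermat.Agent.S18x.Qepo Fermat.Agent.S34x.Val.H2 Fermat.Agent.S34x.Val.H6
  Fermat.Agent.S34x.Sat.H1

variable {K : Type} [Field K] [CharZero K] (O : ValuationSubring K)
  [IsDiscreteValuationRing O] (π : O) (hπ : Irreducible π) (M N : ℕ) [NeZero M] [NeZero N]
  (hMN : M ∣ N) (q : ℕ) [NeZero q] (hq : q.Prime) (hqN : q ∣ N)

/-- The inclusion algebra `F_M → F_N` (NOT a global instance). -/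
@[reducible] def h28alg (K : Type) [Field K] (M N : ℕ) [NeZero M] [NeZero N] (hMN : M ∣ N) :
    Algebra (FM K M) (FM K N) :=
  (IntermediateField.inclusion (full_degeneracyC_le K hMN)).toRingHom.toAlgebra

omit [CharZero K] in
theorem h28alg_coe (w : FM K M) :
    ((@algebraMap (FM K M) (FM K N) _ _ (h28alg K M N hMN) w : FM K N) : LaurentSeries K) =
      (w : LaurentSeries K) :=
  IntermediateField.coe_inclusion (full_degeneracyC_le K hMN) w

/-- helper2's `H2Poly` at `(gaussValM O M, π, j_q, Φ_q(X ; j), X - j̄^q, X^q - j̄)`. -/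
def H28Data : Prop :=
  @H2Poly (FM K M) (FM K N) _ _ (h28alg K M N hMN) (gaussValM O M) (unifM O M π)
    (jbdFull K N q hqN) (h6G O M q hq) (X - C (h6jbar O M ^ q)) (X ^ q - C (h6jbar O M))

include hπ in
/-- `π⁻¹ ∉ W`. -/
theorem h28_unif_inv_not_mem : (unifM O M π)⁻¹ ∉ gaussValM O M := by
  intro h
  refine Fermat.Agent.S18x.Dict.H7.h7_hπV O M π hπ _ h ?_
  rw [Fermat.Agent.S18x.Dict.H7.h7_algebraMap_eq_unifM]
  exact mul_inv_cancel₀ (h6_unifM_ne_zero O M π hπ)

include hπ in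
/-- **The data of stage (A)** from (GEN) + (G2) and helper6's (RED), (W1), (W2), (G1). -/
theorem h28_data (hq0 : (q : IsLocalRing.ResidueField O) = 0)
    (hmin : @minpoly (FM K M) (FM K N) _ _ (h28alg K M N hMN) (jbdFull K N q hqN) =
      (h6G O M q hq).map (gaussValM O M).subtype)
    (hgen : ∀ z : FM K N, ∃ P : Polynomial (FM K M),
      @Polynomial.aeval (FM K M) (FM K N) _ _ (h28alg K M N hMN) (jbdFull K N q hqN) P = z) :
    H28Data O π M N hMN q hq hqN := by
  letI := h28alg K M N hMN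
  exact
    { hπW := h6_unifM_mem O M π
      hπ0 := h6_unifM_ne_zero O M π hπ
      hπu := h28_unif_inv_not_mem O π hπ M
      hmax := h6_W1 O M π hπ
      hdvr := h6_W2 O M π hπ
      hG := h6G_monic O M q hq
      hmin := hmin
      hgen := hgen
      hfac := h6_red O M q hq hq0
      hcop := h6_red_coprime O M q hq
      hirr₁ := h6_red_irr₁ O M q
      hirr₂ := h6_red_irr₂ O M q hq }

/-- `h1V = W[j_q]`. -/
theorem h28_h1V_eq :
    h1V O M N q hqN =
      @h2A (FM K M) (FM K N) _ _ (h28alg K M N hMN) (gaussValM O M) (jbdFull K N q hqN) := by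
  letI := h28alg K M N hMN
  apply le_antisymm
  · refine Subring.closure_le.mpr ?_
    rintro v (⟨hvM, hvV⟩ | hv)
    · have h1 : v = algebraMap (FM K M) (FM K N) ⟨(v : LaurentSeries K), hvM⟩ :=
        Subtype.ext rfl
      rw [h1]
      exact h2_algebraMap_mem (gaussValM O M) _ (w := ⟨(v : LaurentSeries K), hvM⟩) hvV
    · rw [Set.mem_singleton_iff] at hv
      rw [hv]
      exact h2_x_mem _ _
  · rintro _ ⟨P, rfl⟩
    induction P using Polynomial.induction_on' with
    | add p r hp hr =>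
      rw [map_add]
      exact Subring.add_mem _ hp hr
    | monomial n w =>
      have h1 : h2ev (gaussValM O M) (jbdFull K N q hqN) (Polynomial.monomial n w) =
          algebraMap (FM K M) (FM K N) (w : FM K M) * (jbdFull K N q hqN) ^ n := by
        rw [← Polynomial.C_mul_X_pow_eq_monomial, map_mul, map_pow, h2ev_C, h2ev_X]
      rw [h1]
      refine Subring.mul_mem _ ?_ (Subring.pow_mem _ (h1_jq_mem_V O M N q hqN) n)
      exact h1_alpha_mem_V O M N q hqN (w : FM K M).2 w.2

section Alg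

variable [Algebra O (FM K N)] [IsScalarTower O K (FM K N)]

omit [CharZero K] in
/-- The uniformiser in `F_N`: the two spellings agree. -/
theorem h28_unif_eq :
    algebraMap O (FM K N) π =
      @algebraMap (FM K M) (FM K N) _ _ (h28alg K M N hMN) (unifM O M π) := by
  apply Subtype.ext
  rw [coe_algebraMap_O O N π, h28alg_coe]
  exact (inclM_unifM O M π).symm

omit [CharZero K] in
/-- **`hOV`** VERBATIM. -/
theorem h28i_hOV (c : O) : algebraMap O (FM K N) c ∈ h1V O M N q hqN := by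
  refine h1_alpha_mem_V O M N q hqN ?_ ?_
  · rw [coe_algebraMap_O O N c]
    have : (HahnSeries.C (c : K) : LaurentSeries K) =
        algebraMap K (LaurentSeries K) (c : K) := by
      rw [algebraMap_laurentSeries_eq_single, HahnSeries.C_apply]
    rw [this]
    exact (modularFunctionFieldFullC K M).algebraMap_mem (c : K)
  · rw [coe_algebraMap_O O N c]
    exact C_mem_gaussRing O c

variable (D : H28Data O π M N hMN q hq hqN)

include D

/-- **`hVic`** VERBATIM: `V` is integrally closed in `F_N`. -/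
theorem h28i_hVic :
    ∀ y : FM K N, IsIntegral (h1V O M N q hqN) y → y ∈ h1V O M N q hqN := by
  letI := h28alg K M N hMN
  rw [h28_h1V_eq O M N hMN q hqN]
  exact h28_hVic D

/-- **`hπV`** VERBATIM: `π` is not a unit of `V`. -/
theorem h28i_hπV :
    ∀ v ∈ h1V O M N q hqN, algebraMap O (FM K N) π * v ≠ 1 := by
  letI := h28alg K M N hMN
  rw [h28_h1V_eq O M N hMN q hqN, h28_unif_eq O π M N hMN]
  exact h28_hπV D

/-- `F_N = V[1/π]`. -/
theorem h28i_hfrac (z : FM K N) :
    ∃ k : ℕ, (algebraMap O (FM K N) π) ^ k * z ∈ h1V O M N q hqN := by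
  letI := h28alg K M N hMN
  rw [h28_h1V_eq O M N hMN q hqN, h28_unif_eq O π M N hMN]
  exact h28_hfrac D z

omit D in
/-- (TRIV) on the generators gives the hypothesis of the abstract (TRIV). -/
theorem h28_hτW_of_gen (τ : FM K N ≃+* FM K N)
    (hτW : ∀ v : FM K N, (v : LaurentSeries K) ∈ modularFunctionFieldFullC K M →
      (v : LaurentSeries K) ∈ gaussRing O →
      ∃ c ∈ h1V O M N q hqN, τ v - v = algebraMap O (FM K N) π * c) :
    ∀ w ∈ gaussValM O M,
      ∃ c ∈ @h2A (FM K M) (FM K N) _ _ (h28alg K M N hMN) (gaussValM O M) (jbdFull K N q hqN),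
        τ (@algebraMap (FM K M) (FM K N) _ _ (h28alg K M N hMN) w) -
            @algebraMap (FM K M) (FM K N) _ _ (h28alg K M N hMN) w =
          @algebraMap (FM K M) (FM K N) _ _ (h28alg K M N hMN) (unifM O M π) * c := by
  letI := h28alg K M N hMN
  intro w hw
  rw [← h28_h1V_eq O M N hMN q hqN, ← h28_unif_eq O π M N hMN]
  exact hτW _ w.2 hw

/-- **`htriv`** VERBATIM, from (TRIV) on `F_M ∩ (Gauss ring)` and `τ j_q = j_q`. -/
theorem h28i_htriv (τ : FM K N ≃+* FM K N)
    (hτx : τ (jbdFull K N q hqN) = jbdFull K N q hqN)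
    (hτW : ∀ v : FM K N, (v : LaurentSeries K) ∈ modularFunctionFieldFullC K M →
      (v : LaurentSeries K) ∈ gaussRing O →
      ∃ c ∈ h1V O M N q hqN, τ v - v = algebraMap O (FM K N) π * c) :
    ∀ v ∈ h1V O M N q hqN, ∃ c ∈ h1V O M N q hqN,
      τ v - v = algebraMap O (FM K N) π * c := by
  letI := h28alg K M N hMN
  have h := h28_htriv D τ hτx (h28_hτW_of_gen O π M N hMN q hqN τ hτW)
  rw [← h28_h1V_eq O M N hMN q hqN, ← h28_unif_eq O π M N hMN] at h
  exact h

/-- **`hU`** VERBATIM. -/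
theorem h28i_hU (τ : FM K N ≃+* FM K N)
    (hτx : τ (jbdFull K N q hqN) = jbdFull K N q hqN)
    (hτW : ∀ v : FM K N, (v : LaurentSeries K) ∈ modularFunctionFieldFullC K M →
      (v : LaurentSeries K) ∈ gaussRing O →
      ∃ c ∈ h1V O M N q hqN, τ v - v = algebraMap O (FM K N) π * c)
    (ε ε' : O) (hεε' : ε * ε' = 1)
    (hε : τ (algebraMap O (FM K N) π) = algebraMap O (FM K N) ε * algebraMap O (FM K N) π) :
    ∀ g : FM K N, g ≠ 0 → τ g / g ∈ h1V O M N q hqN ∧ g / τ g ∈ h1V O M N q hqN := by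
  letI := h28alg K M N hMN
  have h := h28_hU D τ hτx (h28_hτW_of_gen O π M N hMN q hqN τ hτW)
    (algebraMap O (FM K N) ε) (algebraMap O (FM K N) ε')
    (by rw [← h28_h1V_eq O M N hMN q hqN]; exact h28i_hOV O M N q hqN ε)
    (by rw [← h28_h1V_eq O M N hMN q hqN]; exact h28i_hOV O M N q hqN ε')
    (by rw [← map_mul, hεε', map_one])
    (by rw [← h28_unif_eq O π M N hMN]; exact hε)
  rw [← h28_h1V_eq O M N hMN q hqN] at h
  exact h

/-! ### The two valuation subrings -/

/-- `V_∞`: the component of `X - j̄^q` (where `j_q ≡ j^q`). -/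
def h28Voo : ValuationSubring (FM K N) :=
  @h28V₁ (FM K M) (FM K N) _ _ (h28alg K M N hMN) _ _ _ _ _ _ D

/-- `V_0`: the component of `X^q - j̄` (where `j_q^q ≡ j`). -/
def h28Vzero : ValuationSubring (FM K N) :=
  @h28V₂ (FM K M) (FM K N) _ _ (h28alg K M N hMN) _ _ _ _ _ _ D

/-- `V = V_∞ ∩ V_0`. -/
theorem h28i_mem_iff {z : FM K N} :
    z ∈ h1V O M N q hqN ↔
      z ∈ h28Voo O π M N hMN q hq hqN D ∧ z ∈ h28Vzero O π M N hMN q hq hqN D := by
  letI := h28alg K M N hMN
  rw [h28_h1V_eq O M N hMN q hqN]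
  exact h28_mem_iff D

theorem h28i_le_oo {z : FM K N} (hz : z ∈ h1V O M N q hqN) :
    z ∈ h28Voo O π M N hMN q hq hqN D := ((h28i_mem_iff O π M N hMN q hq hqN D).mp hz).1

theorem h28i_le_zero {z : FM K N} (hz : z ∈ h1V O M N q hqN) :
    z ∈ h28Vzero O π M N hMN q hq hqN D := ((h28i_mem_iff O π M N hMN q hq hqN D).mp hz).2

/-- `π` is a non-unit of `V_∞`. -/
theorem h28i_pi_nonunit_oo :
    algebraMap O (FM K N) π ∈ (h28Voo O π M N hMN q hq hqN D).nonunits := by
  letI := h28alg K M N hMN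
  rw [h28_unif_eq O π M N hMN]
  exact h28_pi_nonunit₁ D

/-- `π` is a non-unit of `V_0`. -/
theorem h28i_pi_nonunit_zero :
    algebraMap O (FM K N) π ∈ (h28Vzero O π M N hMN q hq hqN D).nonunits := by
  letI := h28alg K M N hMN
  rw [h28_unif_eq O π M N hMN]
  exact h28_pi_nonunit₂ D

/-- The maximal ideal of `V_∞` is generated by `π`. -/
theorem h28i_nonunits_div_oo {z : FM K N}
    (hz : z ∈ (h28Voo O π M N hMN q hq hqN D).nonunits) :
    ∃ z' ∈ h28Voo O π M N hMN q hq hqN D, z = algebraMap O (FM K N) π * z' := by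
  letI := h28alg K M N hMN
  rw [h28_unif_eq O π M N hMN]
  exact h28_nonunits_div₁ D hz

/-- The maximal ideal of `V_0` is generated by `π`. -/
theorem h28i_nonunits_div_zero {z : FM K N}
    (hz : z ∈ (h28Vzero O π M N hMN q hq hqN D).nonunits) :
    ∃ z' ∈ h28Vzero O π M N hMN q hq hqN D, z = algebraMap O (FM K N) π * z' := by
  letI := h28alg K M N hMN
  rw [h28_unif_eq O π M N hMN]
  exact h28_nonunits_div₂ D hz

/-- `𝔪_∞ ∩ 𝔪_0 ∩ V = π V`. -/
theorem h28i_cap {v : FM K N} (hv : v ∈ h1V O M N q hqN)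
    (h₁ : v ∈ (h28Voo O π M N hMN q hq hqN D).nonunits)
    (h₂ : v ∈ (h28Vzero O π M N hMN q hq hqN D).nonunits) :
    ∃ c ∈ h1V O M N q hqN, v = algebraMap O (FM K N) π * c := by
  letI := h28alg K M N hMN
  rw [h28_h1V_eq O M N hMN q hqN] at hv ⊢
  rw [h28_unif_eq O π M N hMN]
  exact h28_cap D hv h₁ h₂

/-- The residue field of `V_∞` is `V / 𝔪_∞`. -/
theorem h28i_residue_oo {z : FM K N} (hz : z ∈ h28Voo O π M N hMN q hq hqN D) :
    ∃ a ∈ h1V O M N q hqN, z - a ∈ (h28Voo O π M N hMN q hq hqN D).nonunits := by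
  letI := h28alg K M N hMN
  rw [h28_h1V_eq O M N hMN q hqN]
  exact h28_residue₁ D hz

/-- The residue field of `V_0` is `V / 𝔪_0`. -/
theorem h28i_residue_zero {z : FM K N} (hz : z ∈ h28Vzero O π M N hMN q hq hqN D) :
    ∃ a ∈ h1V O M N q hqN, z - a ∈ (h28Vzero O π M N hMN q hq hqN D).nonunits := by
  letI := h28alg K M N hMN
  rw [h28_h1V_eq O M N hMN q hqN]
  exact h28_residue₂ D hz

/-- `V_∞ ∩ F_M = V_M`. -/
theorem h28i_alpha_oo (v : FM K N)
    (hvM : (v : LaurentSeries K) ∈ modularFunctionFieldFullC K M) :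
    v ∈ h28Voo O π M N hMN q hq hqN D ↔ (v : LaurentSeries K) ∈ gaussRing O := by
  letI := h28alg K M N hMN
  have h1 : v = algebraMap (FM K M) (FM K N) ⟨(v : LaurentSeries K), hvM⟩ := Subtype.ext rfl
  rw [h1]
  exact h28_alpha₁ D ⟨(v : LaurentSeries K), hvM⟩

/-- `V_0 ∩ F_M = V_M`. -/
theorem h28i_alpha_zero (v : FM K N)
    (hvM : (v : LaurentSeries K) ∈ modularFunctionFieldFullC K M) :
    v ∈ h28Vzero O π M N hMN q hq hqN D ↔ (v : LaurentSeries K) ∈ gaussRing O := by
  letI := h28alg K M N hMN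
  have h1 : v = algebraMap (FM K M) (FM K N) ⟨(v : LaurentSeries K), hvM⟩ := Subtype.ext rfl
  rw [h1]
  exact h28_alpha₂ D ⟨(v : LaurentSeries K), hvM⟩

/-- The residue field of `V_∞` is the residue field of `V_M`. -/
theorem h28i_residue_oo_M {z : FM K N} (hz : z ∈ h28Voo O π M N hMN q hq hqN D) :
    ∃ v : FM K N, (v : LaurentSeries K) ∈ modularFunctionFieldFullC K M ∧
      (v : LaurentSeries K) ∈ gaussRing O ∧
      z - v ∈ (h28Voo O π M N hMN q hq hqN D).nonunits := by
  letI := h28alg K M N hMN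
  obtain ⟨w, hw, h1⟩ := h28_residue_lin D (h6jbar O M ^ q) rfl hz
  exact ⟨algebraMap (FM K M) (FM K N) w, w.2, hw, h1⟩

/-- `P(j_q) ∈ 𝔪_∞ ↔ (X - j̄^q) ∣ P mod 𝔪_W`. -/
theorem h28i_nonunits_iff_oo (P : Polynomial (gaussValM O M)) :
    @h2ev (FM K M) (FM K N) _ _ (h28alg K M N hMN) (gaussValM O M) (jbdFull K N q hqN) P ∈
        (h28Voo O π M N hMN q hq hqN D).nonunits ↔
      (X - C (h6jbar O M ^ q)) ∣ P.map (IsLocalRing.residue (gaussValM O M)) := by
  letI := h28alg K M N hMN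
  exact h28_nonunits_iff₁ D P

/-- `P(j_q) ∈ 𝔪_0 ↔ (X^q - j̄) ∣ P mod 𝔪_W`. -/
theorem h28i_nonunits_iff_zero (P : Polynomial (gaussValM O M)) :
    @h2ev (FM K M) (FM K N) _ _ (h28alg K M N hMN) (gaussValM O M) (jbdFull K N q hqN) P ∈
        (h28Vzero O π M N hMN q hq hqN D).nonunits ↔
      (X ^ q - C (h6jbar O M)) ∣ P.map (IsLocalRing.residue (gaussValM O M)) := by
  letI := h28alg K M N hMN
  exact h28_nonunits_iff₂ D P

/-- `j_q ≡ j^q` on the component `∞`. -/
theorem h28i_jq_oo :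
    jbdFull K N q hqN - jbFull K N ^ q ∈ (h28Voo O π M N hMN q hq hqN D).nonunits := by
  letI := h28alg K M N hMN
  have h1 : jbdFull K N q hqN - jbFull K N ^ q =
      h2ev (gaussValM O M) (jbdFull K N q hqN) (X - C (jM O M ^ q)) := by
    rw [map_sub, h2ev_X, h2ev_C]
    congr 1
  have h2 : IsLocalRing.residue (gaussValM O M) (jM O M ^ q) = h6jbar O M ^ q :=
    map_pow (IsLocalRing.residue (gaussValM O M)) (jM O M) q
  rw [h1, h28i_nonunits_iff_oo O π M N hMN q hq hqN D, Polynomial.map_sub, Polynomial.map_X,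
    Polynomial.map_C, h2]

/-- `j_q^q ≡ j` on the component `0`. -/
theorem h28i_jq_zero :
    jbdFull K N q hqN ^ q - jbFull K N ∈ (h28Vzero O π M N hMN q hq hqN D).nonunits := by
  letI := h28alg K M N hMN
  have h1 : jbdFull K N q hqN ^ q - jbFull K N =
      h2ev (gaussValM O M) (jbdFull K N q hqN) (X ^ q - C (jM O M)) := by
    rw [map_sub, map_pow, h2ev_X, h2ev_C]
    congr 1
  rw [h1, h28i_nonunits_iff_zero O π M N hMN q hq hqN D, Polynomial.map_sub, Polynomial.map_pow,
    Polynomial.map_X, Polynomial.map_C]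
  exact dvd_refl _

end Alg

end Fermat.Agent.S34x.Val.H28
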