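import Mathlib
import Fermat.Agent.S34x.Val.H2_TwoValPoly
import Fermat.Agent.S34x.Val.H2_Ideals

/-!
# W10 / S34, stage (A) VAL2, abstract core, the inertia side (helper2)

`V = W[x] ⊆ F` as in `H2Poly`.  Let `τ` be a ring automorphism of `F` extending a ring
automorphism `τ₀` of `F₀` with `τ x = x`, `τ₀ w - w ∈ πW` on `W` (TRIV at the lower level) and
`τ₀ π = ε π` for a unit `ε` of `W`.  Then

* `htriv` : `τ v - v ∈ πV` for every `v ∈ V`;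
* `hU` : `τ g / g ∈ V` and `g / τ g ∈ V` for every `g ≠ 0`;

in exactly the spelling consumed by the gluing theorems (`h26_ss_abs`, `h26_ss_pow`,
`h18_ss_pow`).  `H2Poly.out` collects every output of stage (A) for `V`.
-/

set_option autoImplicit false

open Polynomial

namespace Fermat.Agent.S34x.Val.H2

variable {F₀ F : Type*} [Field F₀] [Field F] [Algebra F₀ F]
  {W : ValuationSubring F₀} {π : F₀} {x : F} {G : W[X]}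
  {G₁ G₂ : (IsLocalRing.ResidueField W)[X]}

namespace H2Poly

/-- **(TRIV)** on `V = W[x]`, from (TRIV) on `W`. -/
theorem htriv_of (D : H2Poly W π x G G₁ G₂) (τ₀ : F₀ ≃+* F₀) (τ : F ≃+* F)
    (hcompat : ∀ w : F₀, τ (algebraMap F₀ F w) = algebraMap F₀ F (τ₀ w)) (hτx : τ x = x)
    (hW : ∀ w ∈ W, ∃ c ∈ W, τ₀ w - w = π * c) :
    ∀ v ∈ h2A W x, ∃ c ∈ h2A W x, τ v - v = algebraMap F₀ F π * c := by
  refine D.triv τ hτx ?_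
  intro w hw
  obtain ⟨c, hc, hc'⟩ := hW w hw
  refine ⟨algebraMap F₀ F c, h2_algebraMap_mem W x hc, ?_⟩
  rw [hcompat, ← map_sub, hc', map_mul]

/-- **(U)** for `V = W[x]`. -/
theorem hU_of (D : H2Poly W π x G G₁ G₂) (τ₀ : F₀ ≃+* F₀) (τ : F ≃+* F)
    (hcompat : ∀ w : F₀, τ (algebraMap F₀ F w) = algebraMap F₀ F (τ₀ w)) (hτx : τ x = x)
    (hW : ∀ w ∈ W, ∃ c ∈ W, τ₀ w - w = π * c)
    (ε ε' : F₀) (hε : ε ∈ W) (hε' : ε' ∈ W) (hεε' : ε * ε' = 1) (hτπ : τ₀ π = ε * π) :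
    ∀ g : F, g ≠ 0 → τ g / g ∈ h2A W x ∧ g / τ g ∈ h2A W x := by
  obtain ⟨e₁, e₂, h2, -, -⟩ := D.exists_two
  intro g hg
  refine h2.unit_quot τ (algebraMap F₀ F ε) (algebraMap F₀ F ε')
    (h2_algebraMap_mem W x hε) (h2_algebraMap_mem W x hε') ?_ ?_ ?_ hg
  · rw [← map_mul, hεε', map_one]
  · rw [hcompat, hτπ, map_mul]
  · exact D.htriv_of τ₀ τ hcompat hτx hW

/-- `τ` preserves `V = W[x]`. -/
theorem tau_mem (D : H2Poly W π x G G₁ G₂) (τ₀ : F₀ ≃+* F₀) (τ : F ≃+* F)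
    (hcompat : ∀ w : F₀, τ (algebraMap F₀ F w) = algebraMap F₀ F (τ₀ w)) (hτx : τ x = x)
    (hW : ∀ w ∈ W, ∃ c ∈ W, τ₀ w - w = π * c) :
    ∀ v ∈ h2A W x, τ v ∈ h2A W x := by
  intro v hv
  obtain ⟨c, hc, hc'⟩ := D.htriv_of τ₀ τ hcompat hτx hW v hv
  have : τ v = v + algebraMap F₀ F π * c := by rw [← hc']; ring
  rw [this]
  exact (h2A W x).add_mem hv ((h2A W x).mul_mem (h2_algebraMap_mem W x D.hπW) hc)

/-- **All outputs of stage (A)** for `V = W[x]`, in the spelling of the gluing theorems. -/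
theorem out (D : H2Poly W π x G G₁ G₂) :
    (∀ y : F, IsIntegral (h2A W x) y → y ∈ h2A W x) ∧
    (∀ w ∈ W, algebraMap F₀ F w ∈ h2A W x) ∧
    x ∈ h2A W x ∧
    (∀ v ∈ h2A W x, algebraMap F₀ F π * v ≠ 1) ∧
    ∃ (P₁ P₂ : Ideal (h2A W x)) (V₁ V₂ : ValuationSubring F),
      P₁.IsMaximal ∧ P₂.IsMaximal ∧ P₁ ≠ P₂ ∧
      (⟨algebraMap F₀ F π, h2_algebraMap_mem W x D.hπW⟩ : h2A W x) ∈ P₁ ∧
      (⟨algebraMap F₀ F π, h2_algebraMap_mem W x D.hπW⟩ : h2A W x) ∈ P₂ ∧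
      (∀ v : h2A W x, v ∈ P₁ → v ∈ P₂ → ∃ c ∈ h2A W x, (v : F) = algebraMap F₀ F π * c) ∧
      (∀ z : F, z ∈ h2A W x ↔ z ∈ V₁ ∧ z ∈ V₂) ∧
      (∀ v : h2A W x, v ∈ P₁ ↔ (v : F) ∈ V₁.nonunits) ∧
      (∀ v : h2A W x, v ∈ P₂ ↔ (v : F) ∈ V₂.nonunits) ∧
      (∀ z ∈ V₁, z⁻¹ ∈ V₁ ∨ ∃ z' ∈ V₁, z = algebraMap F₀ F π * z') ∧
      (∀ z ∈ V₂, z⁻¹ ∈ V₂ ∨ ∃ z' ∈ V₂, z = algebraMap F₀ F π * z') ∧
      (∀ z ∈ V₁, ∃ a ∈ h2A W x, ∃ z' ∈ V₁, z = a + algebraMap F₀ F π * z') ∧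
      (∀ z ∈ V₂, ∃ a ∈ h2A W x, ∃ z' ∈ V₂, z = a + algebraMap F₀ F π * z') ∧
      (∀ P : W[X], (⟨h2ev W x P, h2ev_mem W x P⟩ : h2A W x) ∈ P₁ ↔
        G₁ ∣ P.map (IsLocalRing.residue W)) ∧
      (∀ P : W[X], (⟨h2ev W x P, h2ev_mem W x P⟩ : h2A W x) ∈ P₂ ↔
        G₂ ∣ P.map (IsLocalRing.residue W)) := by
  obtain ⟨e₁, e₂, h2, hm₁, hm₂⟩ := D.exists_two
  refine ⟨fun y hy => h2.integrallyClosed hy, fun w hw => h2_algebraMap_mem W x hw,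
    h2_x_mem W x, fun v hv => h2.pi_mul_ne_one hv,
    h2.c₁.ideal, h2.c₂.ideal, h2.c₁.val, h2.c₂.val, h2.c₁.ideal_isMaximal,
    h2.c₂.ideal_isMaximal, h2.ideal_ne, h2.c₁.pi_mem_ideal, h2.c₂.pi_mem_ideal,
    fun v h₁ h₂ => h2.cap v h₁ h₂, fun z => h2.mem_iff,
    fun v => h2.c₁.mem_ideal_iff_nonunits, fun v => h2.c₂.mem_ideal_iff_nonunits,
    fun z hz => h2.c₁.val_unit_or_div hz, fun z hz => h2.c₂.val_unit_or_div hz,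
    fun z hz => h2.c₁.val_residue hz, fun z hz => h2.c₂.val_residue hz,
    fun P => hm₁ P, fun P => hm₂ P⟩

end H2Poly

end Fermat.Agent.S34x.Val.H2
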