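import Mathlib
import Fermat.Agent.S34x.Asm.H25_Geom
import Fermat.Agent.S34x.Val.H6_GenK
import Fermat.Agent.S34x.Val.H6_Tau
import Fermat.Agent.S34x.Val.H2_Ideals
import Fermat.Agent.S34x.Sat.H21_SatCoord
import Fermat.Agent.S34x.Desc.H12_Inertia
import Fermat.Agent.S18x.Dict.H23_Dvr

/-!
# S34, wave 10: the export of stages (A) + (B), `StVPack`, is a theorem (helper6)

`h6_stVPack : Asm.H25.StVPack` - the two-component ring `V = h6V = W[j_q]` of level `M q` over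
every number field `K` normal over `ℚ`, with all the hypotheses of the gluing theorem
`h18_ss_step` on it, for the Hauptmodul of level `2` or `3` and every inertia element over `q`.
No hypothesis is left:

* `V`, `hVic`, `hOV`, `hxV`, `hx'V`, `hπV`, the two components, (TRIV), (U): `Val/H6_Inst`,
  `Val/H6_Tau`, `Val/H2_Ideals`;
* (GEN): `Val/H6_GenK`;
* (SAT): helper21's `h21_sat_coord2`, `h21_sat_coord3`;
* the inertia inputs: helper12's `h12_tauK_mem`, `h12_tauK_res`, `h12_tauK_unif`;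
* the residue characteristic: helper23's `h23_charP_residueField`.
-/

set_option autoImplicit false
set_option linter.unusedSectionVars false
set_option linter.unusedVariables false
set_option linter.style.haveILetI false
set_option synthInstance.maxHeartbeats 400000
set_option maxHeartbeats 1000000

noncomputable section

namespace Fermat.Agent.S34x.Val.H6

open AlgebraicCurve ModularCurve IntermediateField Polynomial
open Fermat.Agent.S18x.Dict.H20 Fermat.Agent.S18x.Dict.H22 Fermat.Agent.S18x.Dict.H23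
open Fermat.Agent.S18x.Spec.H26 Fermat.Agent.S34x.Desc.H12
open Fermat.Agent.S34x.Val.H2 Fermat.Agent.S18x.Qepo Fermat.Agent.S18x.IG.H28
open Fermat.Agent.S34x.Sat.H21 Fermat.Agent.S34x.Asm.H25

local notation "Lbar" => AlgebraicClosure ℚ

/-- **The `V`-package for a base coordinate of level `M`**, given the saturation triple. -/
theorem h6_vpack (B : ValuationSubring Lbar) (K : IntermediateField ℚ Lbar)
    [Normal ℚ ↥K] [IsDiscreteValuationRing (B.comap (algebraMap ↥K Lbar))]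
    (M : ℕ) [NeZero M] (q : ℕ) [NeZero q] [NeZero (M * q)] (hq : q.Prime) (hqM : ¬ q ∣ M)
    (hB : B.LiesOverPrime q) {τ : Lbar ≃ₐ[ℚ] Lbar} (hτ : τ ∈ B.inertiaSubgroupIn ℚ)
    (x₀ : LaurentSeries ℤ) (hlead : x₀.coeff (-1) = 1)
    (hmemM : coeffMap (Int.castRingHom ↥K) x₀ ∈ modularFunctionFieldFullC ↥K M)
    (hmem : coeffMap (Int.castRingHom ↥K) x₀ ∈ modularFunctionFieldFullC ↥K (M * q))
    (π₀ : B.comap (algebraMap ↥K Lbar)) (hπ₀ : Irreducible π₀)
    (hsat :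
      (∀ v ∈ h6V (B.comap (algebraMap ↥K Lbar)) M (M * q) (Dvd.intro q rfl) q
          (Dvd.intro_left M rfl),
        algebraMap (B.comap (algebraMap ↥K Lbar)) ↥(modularFunctionFieldFullC ↥K (M * q)) π₀ * v ∈
          chart (B.comap (algebraMap ↥K Lbar))
            (Fermat.Agent.S18x.IG.H29.coordM ↥K (M * q) x₀ hmem) →
        v ∈ chart (B.comap (algebraMap ↥K Lbar))
          (Fermat.Agent.S18x.IG.H29.coordM ↥K (M * q) x₀ hmem)) ∧
      (∀ v ∈ h6V (B.comap (algebraMap ↥K Lbar)) M (M * q) (Dvd.intro q rfl) q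
          (Dvd.intro_left M rfl),
        algebraMap (B.comap (algebraMap ↥K Lbar)) ↥(modularFunctionFieldFullC ↥K (M * q)) π₀ * v ∈
          chart (B.comap (algebraMap ↥K Lbar))
            (Fermat.Agent.S18x.IG.H29.coordM ↥K (M * q) x₀ hmem)⁻¹ →
        v ∈ chart (B.comap (algebraMap ↥K Lbar))
          (Fermat.Agent.S18x.IG.H29.coordM ↥K (M * q) x₀ hmem)⁻¹) ∧
      (∀ v ∈ h6V (B.comap (algebraMap ↥K Lbar)) M (M * q) (Dvd.intro q rfl) q
          (Dvd.intro_left M rfl),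
        algebraMap (B.comap (algebraMap ↥K Lbar)) ↥(modularFunctionFieldFullC ↥K (M * q)) π₀ * v ∈
          chart₁₂ (B.comap (algebraMap ↥K Lbar))
            (Fermat.Agent.S18x.IG.H29.coordM ↥K (M * q) x₀ hmem)
            (Fermat.Agent.S18x.IG.H29.coordM ↥K (M * q) x₀ hmem)⁻¹ →
        v ∈ chart₁₂ (B.comap (algebraMap ↥K Lbar))
          (Fermat.Agent.S18x.IG.H29.coordM ↥K (M * q) x₀ hmem)
          (Fermat.Agent.S18x.IG.H29.coordM ↥K (M * q) x₀ hmem)⁻¹)) :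
    H25VPack B K (M * q) (tauF (M * q) (tauK K τ))
      (Fermat.Agent.S18x.IG.H29.coordM ↥K (M * q) x₀ hmem) π₀ := by
  haveI hT₁ : IsScalarTower (B.comap (algebraMap ↥K Lbar)) ↥K
      ↥(modularFunctionFieldFullC ↥K M) := IsScalarTower.of_algebraMap_eq (fun c => rfl)
  haveI hT₂ : IsScalarTower (B.comap (algebraMap ↥K Lbar)) ↥K
      ↥(modularFunctionFieldFullC ↥K (M * q)) := IsScalarTower.of_algebraMap_eq (fun c => rfl)
  have hMN : M ∣ M * q := Dvd.intro q rfl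
  have hqN : q ∣ M * q := Dvd.intro_left M rfl
  have hgen : H6Gen (K := ↥K) M (M * q) q := h6GenK K M q hq (M * q) hMN hqN rfl hqM
  haveI hchar : CharP (IsLocalRing.ResidueField (B.comap (algebraMap ↥K Lbar))) q :=
    h23_charP_residueField B hq hB
  have hq0 : (q : IsLocalRing.ResidueField (B.comap (algebraMap ↥K Lbar))) = 0 :=
    CharP.cast_eq_zero _ q
  obtain ⟨ε, ε', hεε', hσπ⟩ := h12_tauK_unif B K hτ π₀ hπ₀
  obtain ⟨e₁, e₂, h2, -, -⟩ :=
    h6_two (B.comap (algebraMap ↥K Lbar)) M (M * q) hMN q hq hqN π₀ hπ₀ hq0 hgen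
  obtain ⟨hsat₁, hsat₂, hsat₁₂⟩ := hsat
  refine ⟨h6V (B.comap (algebraMap ↥K Lbar)) M (M * q) hMN q hqN,
    h6_hVic (B.comap (algebraMap ↥K Lbar)) M (M * q) hMN q hq hqN π₀ hπ₀ hq0 hgen,
    h6_hOV (B.comap (algebraMap ↥K Lbar)) M (M * q) hMN q hqN,
    h6_coord_mem (B.comap (algebraMap ↥K Lbar)) M (M * q) hMN q hqN x₀ hmemM hmem,
    h6_coord_inv_mem (B.comap (algebraMap ↥K Lbar)) M (M * q) hMN q hqN x₀ hlead hmemM hmem,
    h6_hπV (B.comap (algebraMap ↥K Lbar)) M (M * q) hMN q hq hqN π₀ hπ₀ hq0 hgen,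
    hsat₁, hsat₂, hsat₁₂,
    ⟨h2.c₁.ideal, h2.c₂.ideal, inferInstance, inferInstance,
      fun _ => h2.c₁.pi_mem_ideal, fun _ => h2.c₂.pi_mem_ideal,
      fun v hv₁ hv₂ => h2.cap v hv₁ hv₂⟩,
    h6_htriv_inst (B.comap (algebraMap ↥K Lbar)) M (M * q) hMN q hqN (tauK K τ)
      (h12_tauK_mem B K hτ) (h12_tauK_res B K hτ) π₀ hπ₀,
    h6_hU_inst (B.comap (algebraMap ↥K Lbar)) M (M * q) hMN q hq hqN (tauK K τ)
      (h12_tauK_mem B K hτ) (h12_tauK_res B K hτ) π₀ hπ₀ hq0 hgen ε ε' hεε' hσπ⟩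

/-- **The export of stages (A) + (B) is a theorem.** -/
theorem h6_stVPack : StVPack := by
  intro M q p₀ hM hq hqM hp₀q hp₀M x₀ hx₀ _ B hB τ hτ K hfin _ _ hmem π₀ hπ₀
  haveI : NeZero M := ⟨hM⟩
  haveI : NeZero q := ⟨hq.ne_zero⟩
  haveI : Fact q.Prime := ⟨hq⟩
  haveI hchar : CharP (IsLocalRing.ResidueField (B.comap (algebraMap ↥K Lbar))) q :=
    h23_charP_residueField B hq hB
  haveI hT₁ : IsScalarTower (B.comap (algebraMap ↥K Lbar)) ↥K
      ↥(modularFunctionFieldFullC ↥K M) := IsScalarTower.of_algebraMap_eq (fun c => rfl)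
  haveI hT₂ : IsScalarTower (B.comap (algebraMap ↥K Lbar)) ↥K
      ↥(modularFunctionFieldFullC ↥K (M * q)) := IsScalarTower.of_algebraMap_eq (fun c => rfl)
  have hMN : M ∣ M * q := Dvd.intro q rfl
  have hqN : q ∣ M * q := Dvd.intro_left M rfl
  rcases hx₀ with ⟨h2p, rfl⟩ | ⟨h3p, rfl⟩
  · have hM2 : 2 ∣ M := h2p ▸ hp₀M
    have hN2 : 2 ∣ M * q := Dvd.dvd.mul_right hM2 q
    have hq2 : q ≠ 2 := fun h => hp₀q (h2p.trans h.symm)
    refine h6_vpack B K M q hq hqM hB hτ h2 coeff_h2_neg_one (h2_mem_full ↥K M hM2) hmem π₀ hπ₀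
      ?_
    exact h21_sat_coord2 (B.comap (algebraMap ↥K Lbar)) M (M * q) hMN hN2 π₀ hπ₀ q hqM hq2
      (h6V (B.comap (algebraMap ↥K Lbar)) M (M * q) hMN q hqN)
      (h6V_le_gens (B.comap (algebraMap ↥K Lbar)) M (M * q) hMN q hqN hq)
      (h6_coord_mem (B.comap (algebraMap ↥K Lbar)) M (M * q) hMN q hqN h2
        (h2_mem_full ↥K M hM2) (h2_mem_full ↥K (M * q) hN2))
  · have hM3 : 3 ∣ M := h3p ▸ hp₀M
    have hN3 : 3 ∣ M * q := Dvd.dvd.mul_right hM3 q
    have hq3 : q ≠ 3 := fun h => hp₀q (h3p.trans h.symm)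
    refine h6_vpack B K M q hq hqM hB hτ h3 coeff_h3_neg_one (h3_mem_full ↥K M hM3) hmem π₀ hπ₀
      ?_
    exact h21_sat_coord3 (B.comap (algebraMap ↥K Lbar)) M (M * q) hMN hN3 π₀ hπ₀ q hqM hq3
      (h6V (B.comap (algebraMap ↥K Lbar)) M (M * q) hMN q hqN)
      (h6V_le_gens (B.comap (algebraMap ↥K Lbar)) M (M * q) hMN q hqN hq)
      (h6_coord_mem (B.comap (algebraMap ↥K Lbar)) M (M * q) hMN q hqN h3
        (h3_mem_full ↥K M hM3) (h3_mem_full ↥K (M * q) hN3))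

end Fermat.Agent.S34x.Val.H6
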